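import Fermat.Agent.S51lib.Dup
import Fermat.Prelude.Def_FLTPrelim_GaloisRep

/-!
# S51 infrastructure (7): bounding the number of torsion points by a polynomial in `x`
-/

set_option autoImplicit false

open WeierstrassCurve WeierstrassCurve.Affine

namespace Fermat.Agent.S51lib

section

variable {K : Type*} [Field K]

/-- The quadratic polynomial in `Y` cutting out the points with given `x`. -/
noncomputable def tcQuad (W : Affine K) (x : K) : Polynomial K :=
  Polynomial.X ^ 2 + Polynomial.C (W.a₁ * x + W.a₃) * Polynomial.X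
    - Polynomial.C (x ^ 3 + W.a₂ * x ^ 2 + W.a₄ * x + W.a₆)

lemma tcQuad_natDegree (W : Affine K) (x : K) : (tcQuad W x).natDegree = 2 := by
  unfold tcQuad
  compute_degree!

lemma tcQuad_ne_zero (W : Affine K) (x : K) : tcQuad W x ≠ 0 := by
  intro h
  have := tcQuad_natDegree W x
  rw [h] at this
  simp at this

lemma tcQuad_isRoot (W : Affine K) {x y : K} (h : W.Equation x y) : (tcQuad W x).IsRoot y := by
  rw [equation_iff] at h
  rw [Polynomial.IsRoot, tcQuad]
  simp only [Polynomial.eval_sub, Polynomial.eval_add, Polynomial.eval_pow, Polynomial.eval_X,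
    Polynomial.eval_mul, Polynomial.eval_C]
  linear_combination h

variable [DecidableEq K]

/-- The finite set of pairs `(x, y)` with `f x = 0` and `(x, y)` on the curve. -/
noncomputable def tcPairs (W : Affine K) (f : Polynomial K) : Finset (K × K) :=
  f.roots.toFinset.biUnion fun x => (tcQuad W x).roots.toFinset.image fun y => (x, y)

lemma tcPairs_card_le (W : Affine K) (f : Polynomial K) :
    (tcPairs W f).card ≤ 2 * f.natDegree := by
  unfold tcPairs
  calc _ ≤ ∑ x ∈ f.roots.toFinset, ((tcQuad W x).roots.toFinset.image fun y => (x, y)).card :=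
        Finset.card_biUnion_le
    _ ≤ ∑ _x ∈ f.roots.toFinset, 2 := by
        apply Finset.sum_le_sum
        intro x _
        calc _ ≤ (tcQuad W x).roots.toFinset.card := Finset.card_image_le
          _ ≤ Multiset.card (tcQuad W x).roots := Multiset.toFinset_card_le _
          _ ≤ (tcQuad W x).natDegree := Polynomial.card_roots' _
          _ = 2 := tcQuad_natDegree W x
    _ = f.roots.toFinset.card * 2 := by rw [Finset.sum_const, smul_eq_mul]
    _ ≤ f.natDegree * 2 := by
        apply Nat.mul_le_mul_right
        exact (Multiset.toFinset_card_le _).trans (Polynomial.card_roots' _)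
    _ = 2 * f.natDegree := by ring

lemma mem_tcPairs (W : Affine K) (f : Polynomial K) (hf : f ≠ 0) {x y : K}
    (hx : f.eval x = 0) (h : W.Equation x y) : (x, y) ∈ tcPairs W f := by
  unfold tcPairs
  rw [Finset.mem_biUnion]
  refine ⟨x, ?_, ?_⟩
  · rw [Multiset.mem_toFinset, Polynomial.mem_roots hf]
    exact hx
  · rw [Finset.mem_image]
    refine ⟨y, ?_, rfl⟩
    rw [Multiset.mem_toFinset, Polynomial.mem_roots (tcQuad_ne_zero W x)]
    exact tcQuad_isRoot W h

/-- Coordinates of a point. -/
def tcCoord {W : Affine K} : W.Point → Option (K × K)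
  | .zero => none
  | .some x y _ => some (x, y)

omit [DecidableEq K] in
lemma tcCoord_injective {W : Affine K} : Function.Injective (tcCoord (W := W)) := by
  rintro (_ | ⟨x₁, y₁, h₁⟩) (_ | ⟨x₂, y₂, h₂⟩) h
  · rfl
  · simp [tcCoord] at h
  · simp [tcCoord] at h
  · simp only [tcCoord, Option.some.injEq, Prod.mk.injEq] at h
    obtain ⟨rfl, rfl⟩ := h
    rfl

/-- (7) card bound from a polynomial vanishing at the x-coordinates of the nonzero n-torsion
points. -/
theorem card_torsionBy_le (W : Affine K) (n : ℕ)
    (f : Polynomial K) (hf : f ≠ 0)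
    (hroot : ∀ P : W.Point, P ≠ 0 → n • P = 0 → f.eval (xc W P) = 0) :
    Finite (Submodule.torsionBy ℤ W.Point n) ∧
      Nat.card (Submodule.torsionBy ℤ W.Point n) ≤ 2 * f.natDegree + 1 := by
  classical
  set S : Finset (Option (K × K)) := insert none ((tcPairs W f).image some) with hS
  have hScard : S.card ≤ 2 * f.natDegree + 1 := by
    calc S.card ≤ ((tcPairs W f).image some).card + 1 := Finset.card_insert_le _ _
      _ ≤ (tcPairs W f).card + 1 := Nat.add_le_add_right Finset.card_image_le _
      _ ≤ 2 * f.natDegree + 1 := Nat.add_le_add_right (tcPairs_card_le W f) _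
  have hmem : ∀ P : Submodule.torsionBy ℤ W.Point n, tcCoord P.1 ∈ S := by
    rintro ⟨P, hP⟩
    rw [Submodule.mem_torsionBy_iff, natCast_zsmul] at hP
    rcases P with _ | ⟨x, y, h⟩
    · exact Finset.mem_insert_self _ _
    · apply Finset.mem_insert_of_mem
      rw [Finset.mem_image]
      refine ⟨(x, y), ?_, rfl⟩
      have := hroot (Point.some x y h) (Point.some_ne_zero h) hP
      exact mem_tcPairs W f hf this h.1
  set φ : Submodule.torsionBy ℤ W.Point n → S := fun P => ⟨tcCoord P.1, hmem P⟩ with hφ
  have hinj : Function.Injective φ := by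
    intro P Q h
    have : tcCoord P.1 = tcCoord Q.1 := congrArg Subtype.val h
    exact Subtype.ext (tcCoord_injective this)
  have hfin : Finite (Submodule.torsionBy ℤ W.Point n) := Finite.of_injective φ hinj
  refine ⟨hfin, ?_⟩
  calc Nat.card (Submodule.torsionBy ℤ W.Point n) ≤ Nat.card S :=
        Nat.card_le_card_of_injective φ hinj
    _ = S.card := by rw [Nat.card_eq_fintype_card, Fintype.card_coe]
    _ ≤ 2 * f.natDegree + 1 := hScard

end

end Fermat.Agent.S51lib
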