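import Mathlib
import Fermat.Prelude.Def_FLTPrelim_GaloisRep

/-!
# S51 infrastructure: Galois-fixed elements of `ℚ̄` are rational

The `Algebra ℚ (AlgebraicClosure ℚ)` instance found by instance resolution (and used in the
frozen statement) is `DivisionRing.toRatAlgebra`; `IsGalois` is only registered for
`AlgebraicClosure.instAlgebra`.  The two are definitionally equal, which is what
`s51_isGalois_QBar` records.
-/

set_option autoImplicit false

namespace Fermat.Agent.S51lib

theorem s51_isGalois_QBar : IsGalois ℚ (AlgebraicClosure ℚ) :=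
  (inferInstance : @IsGalois ℚ _ (AlgebraicClosure ℚ) _ (AlgebraicClosure.instAlgebra ℚ))

/-- (5) An element of `ℚ̄` fixed by every automorphism is rational. -/
theorem rat_of_galois_fixed (z : AlgebraicClosure ℚ)
    (hz : ∀ σ : AlgebraicClosure ℚ ≃ₐ[ℚ] AlgebraicClosure ℚ, σ z = z) :
    ∃ q : ℚ, algebraMap ℚ (AlgebraicClosure ℚ) q = z := by
  have := s51_isGalois_QBar
  exact (InfiniteGalois.mem_range_algebraMap_iff_fixed (k := ℚ) (K := AlgebraicClosure ℚ) z).mpr hz

/-- Injectivity of `ℚ → ℚ̄`. -/
theorem algebraMap_QBar_injective :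
    Function.Injective (algebraMap ℚ (AlgebraicClosure ℚ)) :=
  (algebraMap ℚ (AlgebraicClosure ℚ)).injective

end Fermat.Agent.S51lib
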