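import Mathlib

/-!
# S51 library: translated `b`-invariants and the duplication formula in `x`-coordinates

For a Weierstrass curve `W` over a field and `x : F`, the quantities `tB2 W x, tB4 W x, tB6 W x,
tB8 W x` are the `b`-invariants of the curve translated by `x` (so `tB6 = Ψ₂²`, `tB8 = ψ₃`).
For a nonzero point `P` with `2P ≠ 0` we have `x(2P) = x(P) - tB8 / tB6`.
-/

set_option autoImplicit false

open WeierstrassCurve WeierstrassCurve.Affine

namespace Fermat.Agent.S51lib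

variable {F : Type*} [Field F]

/-- `b₂` of the curve translated by `x`. -/
def tB2 (W : WeierstrassCurve F) (x : F) : F := W.b₂ + 12 * x

/-- `b₄` of the curve translated by `x`. -/
def tB4 (W : WeierstrassCurve F) (x : F) : F := 6 * x ^ 2 + W.b₂ * x + W.b₄

/-- `b₆` of the curve translated by `x`; this is `Ψ₂²(x) = (2y + a₁x + a₃)²`. -/
def tB6 (W : WeierstrassCurve F) (x : F) : F := 4 * x ^ 3 + W.b₂ * x ^ 2 + 2 * W.b₄ * x + W.b₆

/-- `b₈` of the curve translated by `x`; this is `ψ₃(x)`. -/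
def tB8 (W : WeierstrassCurve F) (x : F) : F :=
  3 * x ^ 4 + W.b₂ * x ^ 3 + 3 * W.b₄ * x ^ 2 + 3 * W.b₆ * x + W.b₈

theorem tB_relation (W : WeierstrassCurve F) (x : F) :
    4 * tB8 W x = tB2 W x * tB6 W x - tB4 W x ^ 2 := by
  have h := W.b_relation
  unfold tB2 tB4 tB6 tB8
  linear_combination h

theorem tB_c₄ (W : WeierstrassCurve F) (x : F) :
    W.c₄ = tB2 W x ^ 2 - 24 * tB4 W x := by
  unfold tB2 tB4
  rw [WeierstrassCurve.c₄]
  ring

theorem tB_Δ (W : WeierstrassCurve F) (x : F) :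
    W.Δ = -tB2 W x ^ 2 * tB8 W x - 8 * tB4 W x ^ 3 - 27 * tB6 W x ^ 2
      + 9 * tB2 W x * tB4 W x * tB6 W x := by
  have h := W.b_relation
  unfold tB2 tB4 tB6 tB8
  rw [WeierstrassCurve.Δ]
  linear_combination (6 * x * (W.b₂ + 6 * x)) * h

theorem tB6_add (W : WeierstrassCurve F) (x d : F) :
    tB6 W (x + d) = tB6 W x + 2 * d * tB4 W x + d ^ 2 * tB2 W x + 4 * d ^ 3 := by
  unfold tB2 tB4 tB6
  ring

theorem tB8_add (W : WeierstrassCurve F) (x d : F) :
    tB8 W (x + d) = tB8 W x + 3 * d * tB6 W x + 3 * d ^ 2 * tB4 W x + d ^ 3 * tB2 W x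
      + 3 * d ^ 4 := by
  unfold tB2 tB4 tB6 tB8
  ring

theorem tB6_tB8_zero (W : WeierstrassCurve F) (x : F) (h6 : tB6 W x = 0) (h8 : tB8 W x = 0) :
    W.Δ = 0 := by
  have hr := tB_relation W x
  rw [h6, h8] at hr
  have h4 : tB4 W x = 0 := by
    have : tB4 W x ^ 2 = 0 := by linear_combination hr
    exact pow_eq_zero_iff (by norm_num) |>.1 this
  rw [tB_Δ W x, h6, h8, h4]
  ring

section Point

variable (W : Affine F)

/-- The `x`-coordinate of a point (`0` for the point at infinity). -/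
def xc : W.Point → F
  | .zero => 0
  | .some x _ _ => x

@[simp]
theorem xc_some {x y : F} (h : W.Nonsingular x y) : xc W (Point.some x y h) = x := rfl

@[simp]
theorem xc_zero : xc W (0 : W.Point) = 0 := rfl

theorem xc_neg (P : W.Point) : xc W (-P) = xc W P := by
  cases P <;> rfl

theorem eq_or_eq_neg_of_xc_eq {P Q : W.Point} (hP : P ≠ 0) (hQ : Q ≠ 0)
    (h : xc W P = xc W Q) : P = Q ∨ P = -Q := by
  rcases P with _ | ⟨x₁, y₁, h₁⟩
  · exact absurd rfl hP
  rcases Q with _ | ⟨x₂, y₂, h₂⟩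
  · exact absurd rfl hQ
  exact Point.X_eq_iff.1 h

theorem tB6_eq_sq {x y : F} (h : W.Equation x y) : tB6 W x = (y - W.negY x y) ^ 2 := by
  rw [equation_iff] at h
  unfold tB6
  simp only [negY, b₂, b₄, b₆]
  linear_combination -4 * h

variable [DecidableEq F]

theorem add_self_eq_zero_iff {x y : F} (h : W.Nonsingular x y) :
    Point.some x y h + Point.some x y h = 0 ↔ tB6 W x = 0 := by
  rw [tB6_eq_sq W h.1]
  constructor
  · intro h0
    by_contra hne
    have hy : y ≠ W.negY x y := fun e => hne (by rw [sub_eq_zero.2 e]; ring)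
    rw [Point.add_self_of_Y_ne hy] at h0
    exact Point.some_ne_zero _ h0
  · intro h0
    have hy : y = W.negY x y := sub_eq_zero.1 (pow_eq_zero_iff (by norm_num) |>.1 h0)
    exact Point.add_self_of_Y_eq hy

theorem xc_add_self_some {x y : F} (h : W.Nonsingular x y) (hy : y ≠ W.negY x y) :
    xc W (Point.some x y h + Point.some x y h) * tB6 W x = x * tB6 W x - tB8 W x := by
  have hD : y - W.negY x y ≠ 0 := sub_ne_zero.2 hy
  have hE := h.1
  rw [equation_iff] at hE
  rw [Point.add_self_of_Y_ne hy, xc_some, slope_of_Y_ne rfl hy, tB6_eq_sq W h.1]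
  have key : (3 * x ^ 2 + 2 * W.a₂ * x + W.a₄ - W.a₁ * y) ^ 2
      + W.a₁ * (3 * x ^ 2 + 2 * W.a₂ * x + W.a₄ - W.a₁ * y) * (y - W.negY x y)
      - (W.a₂ + 2 * x) * (y - W.negY x y) ^ 2 = x * (y - W.negY x y) ^ 2 - tB8 W x := by
    unfold tB8
    simp only [negY, b₂, b₄, b₆, b₈]
    linear_combination (-(W.a₁ ^ 2 + 4 * W.a₂ + 12 * x)) * hE
  generalize y - W.negY x y = D at hD key ⊢
  generalize 3 * x ^ 2 + 2 * W.a₂ * x + W.a₄ - W.a₁ * y = N at key ⊢
  rw [← key]
  simp only [addX]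
  field_simp
  ring

/-- Duplication formula in `x`-coordinates. -/
theorem xc_add_self {P : W.Point} (hP : P ≠ 0) (h2 : P + P ≠ 0) :
    tB6 W (xc W P) ≠ 0 ∧ xc W (P + P) = xc W P - tB8 W (xc W P) / tB6 W (xc W P) := by
  rcases P with _ | ⟨x, y, h⟩
  · exact absurd rfl hP
  have h6 : tB6 W x ≠ 0 := fun h0 => h2 ((add_self_eq_zero_iff W h).2 h0)
  have hy : y ≠ W.negY x y := by
    intro e
    exact h2 (Point.add_self_of_Y_eq e)
  refine ⟨h6, ?_⟩
  have := xc_add_self_some W h hy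
  rw [xc_some]
  field_simp
  linear_combination this

theorem add_self_ne_zero_of_tB6_ne_zero {P : W.Point} (hP : P ≠ 0) (h6 : tB6 W (xc W P) ≠ 0) :
    P + P ≠ 0 := by
  rcases P with _ | ⟨x, y, h⟩
  · exact absurd rfl hP
  exact fun h0 => h6 ((add_self_eq_zero_iff W h).1 h0)

end Point

end Fermat.Agent.S51lib
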