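import Mathlib

set_option autoImplicit false

namespace Fermat.Agent.S51lib

/-- (A3) a rational root of ψ₃ gives the X₀(3)-parameter. -/
theorem exists_rat_param_of_root_psi3 (E : WeierstrassCurve ℚ) (hΔ : E.Δ ≠ 0) (x : ℚ)
    (hx : 3 * x ^ 4 + E.b₂ * x ^ 3 + 3 * E.b₄ * x ^ 2 + 3 * E.b₆ * x + E.b₈ = 0) :
    E.c₄ = 0 ∨ ∃ h : ℚ, h ≠ 0 ∧ E.c₄ ^ 3 * h = (h + 27) * (h + 3) ^ 3 * E.Δ := by
  have hrel : 4 * E.b₈ = E.b₂ * E.b₆ - E.b₄ ^ 2 := E.b_relation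
  set B2 : ℚ := E.b₂ + 12 * x with hB2
  set B4 : ℚ := 6 * x ^ 2 + E.b₂ * x + E.b₄ with hB4
  set B6 : ℚ := 4 * x ^ 3 + E.b₂ * x ^ 2 + 2 * E.b₄ * x + E.b₆ with hB6
  have h26 : B2 * B6 = B4 ^ 2 := by
    rw [hB2, hB4, hB6]
    linear_combination 4 * hx - hrel
  have hc4 : E.c₄ = B2 ^ 2 - 24 * B4 := by
    rw [hB2, hB4, WeierstrassCurve.c₄]
    ring
  have hΔ' : E.Δ = -8 * B4 ^ 3 - 27 * B6 ^ 2 + 9 * B2 * B4 * B6 := by
    have hx' := hx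
    rw [hB2, hB4, hB6, WeierstrassCurve.Δ]
    simp only [WeierstrassCurve.b₂, WeierstrassCurve.b₄, WeierstrassCurve.b₆,
      WeierstrassCurve.b₈] at hx' ⊢
    linear_combination (-(E.a₁ ^ 2 + 4 * E.a₂ + 12 * x) ^ 2) * hx'
  have hkey : E.Δ * B2 ^ 2 = B4 ^ 3 * (B2 ^ 2 - 27 * B4) := by
    rw [hΔ']
    linear_combination (-27 * B2 * B6 - 27 * B4 ^ 2 + 9 * B2 ^ 2 * B4) * h26
  by_cases hB2z : B2 = 0
  · left
    have hB4z : B4 = 0 := by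
      have : B4 ^ 2 = 0 := by rw [← h26, hB2z, zero_mul]
      exact pow_eq_zero_iff (two_ne_zero) |>.mp this
    rw [hc4, hB2z, hB4z]
    ring
  · right
    have hB4nz : B4 ≠ 0 := by
      intro h0
      rw [h0] at hkey
      have : E.Δ * B2 ^ 2 = 0 := by rw [hkey]; ring
      rcases mul_eq_zero.mp this with h1 | h1
      · exact hΔ h1
      · exact hB2z (pow_eq_zero_iff two_ne_zero |>.mp h1)
    have hnum : B2 ^ 2 - 27 * B4 ≠ 0 := by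
      intro h0
      rw [h0, mul_zero] at hkey
      rcases mul_eq_zero.mp hkey with h1 | h1
      · exact hΔ h1
      · exact hB2z (pow_eq_zero_iff two_ne_zero |>.mp h1)
    refine ⟨(B2 ^ 2 - 27 * B4) / B4, div_ne_zero hnum hB4nz, ?_⟩
    have e1 : (B2 ^ 2 - 27 * B4) / B4 + 27 = B2 ^ 2 / B4 := by field_simp; ring
    have e2 : (B2 ^ 2 - 27 * B4) / B4 + 3 = E.c₄ / B4 := by rw [hc4]; field_simp; ring
    rw [e1, e2]
    have hB4' : B4 ^ 4 ≠ 0 := pow_ne_zero _ hB4nz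
    have goal' : E.c₄ ^ 3 * ((B2 ^ 2 - 27 * B4) / B4) * B4 ^ 4
        = B2 ^ 2 / B4 * (E.c₄ / B4) ^ 3 * E.Δ * B4 ^ 4 := by
      have l : E.c₄ ^ 3 * ((B2 ^ 2 - 27 * B4) / B4) * B4 ^ 4
          = E.c₄ ^ 3 * (B4 ^ 3 * (B2 ^ 2 - 27 * B4)) := by field_simp
      have r : B2 ^ 2 / B4 * (E.c₄ / B4) ^ 3 * E.Δ * B4 ^ 4 = E.c₄ ^ 3 * (E.Δ * B2 ^ 2) := by
        field_simp
      rw [l, r, hkey]
    exact mul_right_cancel₀ hB4' goal'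

end Fermat.Agent.S51lib
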