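import Mathlib

set_option autoImplicit false

namespace Fermat.Agent.S51lib

theorem desc_sq_mod_three (n : ℤ) : n ^ 2 % 3 = 0 ∨ n ^ 2 % 3 = 1 := by
  have h : n % 3 = 0 ∨ n % 3 = 1 ∨ n % 3 = 2 := by omega
  rcases h with h | h | h <;> simp [pow_two, Int.mul_emod, h]

theorem desc_sq_mod_four (n : ℤ) : n ^ 2 % 4 = 0 ∨ n ^ 2 % 4 = 1 := by
  have h : n % 4 = 0 ∨ n % 4 = 1 ∨ n % 4 = 2 ∨ n % 4 = 3 := by omega
  rcases h with h | h | h | h <;> simp [pow_two, Int.mul_emod, h]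

theorem desc_odd_sq_mod_eight (n : ℤ) (hn : n % 2 = 1) : n ^ 2 % 8 = 1 := by
  have h : n % 8 = 1 ∨ n % 8 = 3 ∨ n % 8 = 5 ∨ n % 8 = 7 := by omega
  rcases h with h | h | h | h <;> simp [pow_two, Int.mul_emod, h]

theorem desc_even_sq_mod_four (n : ℤ) (hn : n % 2 = 0) : n ^ 2 % 4 = 0 := by
  have h : n % 4 = 0 ∨ n % 4 = 2 := by omega
  rcases h with h | h <;> simp [pow_two, Int.mul_emod, h]

theorem desc_sq_mod_two (n : ℤ) : n ^ 2 % 2 = n % 2 := by
  have h : n % 2 = 0 ∨ n % 2 = 1 := by omega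
  rcases h with h | h <;> simp [pow_two, Int.mul_emod, h]

theorem desc_three_dvd_sq (n : ℤ) (hn : n ^ 2 % 3 = 0) : n % 3 = 0 := by
  have h : n % 3 = 0 ∨ n % 3 = 1 ∨ n % 3 = 2 := by omega
  rcases h with h | h | h
  · exact h
  · simp [pow_two, Int.mul_emod, h] at hn
  · simp [pow_two, Int.mul_emod, h] at hn

theorem desc_five_dvd_sq (n : ℤ) (hn : n ^ 2 % 5 = 0) : n % 5 = 0 := by
  have h : n % 5 = 0 ∨ n % 5 = 1 ∨ n % 5 = 2 ∨ n % 5 = 3 ∨ n % 5 = 4 := by omega
  rcases h with h | h | h | h | h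
  · exact h
  all_goals simp [pow_two, Int.mul_emod, h] at hn

theorem desc_pos_sq {a b c : ℤ} (h : IsCoprime a b) (heq : a * b = c ^ 2) (ha : 0 < a) :
    ∃ r : ℤ, a = r ^ 2 ∧ r ≠ 0 := by
  obtain ⟨r, hr | hr⟩ := Int.sq_of_isCoprime h heq
  · refine ⟨r, hr, ?_⟩
    rintro rfl
    simp at hr
    omega
  · exfalso
    have : 0 ≤ r ^ 2 := sq_nonneg r
    omega

theorem desc_isCoprime_half {u v a b : ℤ} (h : IsCoprime u v) (h1 : u = a + b) (h2 : v = a - b) :
    IsCoprime a b := by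
  obtain ⟨x, y, hxy⟩ := h
  exact ⟨x + y, x - y, by rw [← hxy, h1, h2]; ring⟩

theorem desc_not_dvd_of_isCoprime {a b : ℤ} (h : IsCoprime a b) (n : ℤ) (hn : 1 < n)
    (ha : a % n = 0) (hb : b % n = 0) : False := by
  have h1 : n ∣ a := Int.dvd_of_emod_eq_zero ha
  have h2 : n ∣ b := Int.dvd_of_emod_eq_zero hb
  have h3 := h.isUnit_of_dvd' h1 h2
  rw [Int.isUnit_iff] at h3
  omega

theorem desc_isCoprime_two {a : ℤ} (h : a % 2 = 1) : IsCoprime a 2 :=
  ⟨1, -(a / 2), by omega⟩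

theorem desc_isCoprime_three {a : ℤ} (h : a % 3 ≠ 0) : IsCoprime a 3 := by
  have h' : a % 3 = 1 ∨ a % 3 = 2 := by omega
  rcases h' with h' | h'
  · exact ⟨1, -(a / 3), by omega⟩
  · exact ⟨-1, (a / 3) + 1, by omega⟩

theorem desc_isCoprime_five {a : ℤ} (h : a % 5 ≠ 0) : IsCoprime a 5 := by
  have h' : a % 5 = 1 ∨ a % 5 = 2 ∨ a % 5 = 3 ∨ a % 5 = 4 := by omega
  rcases h' with h' | h' | h' | h'
  · exact ⟨1, -(a / 5), by omega⟩
  · exact ⟨-2, 2 * (a / 5) + 1, by omega⟩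
  · exact ⟨2, -(2 * (a / 5) + 1), by omega⟩
  · exact ⟨-1, (a / 5) + 1, by omega⟩

/-- basic consequences of the two Pythagorean relations -/
theorem desc_basic (u e v w : ℤ) (hcop : IsCoprime u e)
    (h1 : u ^ 2 = e ^ 2 + v ^ 2) (h2 : u ^ 2 = 81 * e ^ 2 + w ^ 2) :
    u % 2 = 1 ∧ u % 3 ≠ 0 ∧ IsCoprime u v ∧ IsCoprime u w ∧ IsCoprime e v := by
  have hu2 : u % 2 = 1 := by
    by_contra hcon
    have hu0 : u % 2 = 0 := by omega
    have he1 : e % 2 = 1 := by
      by_contra hcon2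
      exact desc_not_dvd_of_isCoprime hcop 2 (by norm_num) hu0 (by omega)
    have hU := desc_even_sq_mod_four u hu0
    have hE := desc_odd_sq_mod_eight e he1
    have hV := desc_sq_mod_four v
    omega
  have hu3 : u % 3 ≠ 0 := by
    intro hu0
    have he3 : e % 3 ≠ 0 := fun he0 => desc_not_dvd_of_isCoprime hcop 3 (by norm_num) hu0 he0
    have hE : e ^ 2 % 3 = 1 := by
      rcases desc_sq_mod_three e with h | h
      · exact absurd (desc_three_dvd_sq e h) he3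
      · exact h
    have hU : u ^ 2 % 3 = 0 := by
      simp [pow_two, Int.mul_emod, hu0]
    have hV := desc_sq_mod_three v
    omega
  have huv : IsCoprime u v := by
    have h3 : IsCoprime u (e ^ 2) := hcop.pow_right
    have h4 : IsCoprime u (-(e ^ 2) + u * u) := h3.neg_right.add_mul_left_right u
    have h5 : -(e ^ 2) + u * u = v ^ 2 := by linear_combination h1
    rw [h5] at h4
    exact (IsCoprime.pow_right_iff (by norm_num : 0 < 2)).1 h4
  have huw : IsCoprime u w := by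
    have h3 : IsCoprime u (e ^ 2) := hcop.pow_right
    have h33 : IsCoprime u (3 ^ 4) := (desc_isCoprime_three hu3).pow_right
    have h34 : IsCoprime u (3 ^ 4 * e ^ 2) := h33.mul_right h3
    have h4 : IsCoprime u (-(3 ^ 4 * e ^ 2) + u * u) := h34.neg_right.add_mul_left_right u
    have h5 : -(3 ^ 4 * e ^ 2) + u * u = w ^ 2 := by linear_combination h2
    rw [h5] at h4
    exact (IsCoprime.pow_right_iff (by norm_num : 0 < 2)).1 h4
  have hev : IsCoprime e v := by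
    have h3 : IsCoprime e (u ^ 2) := hcop.symm.pow_right
    have h4 : IsCoprime e (u ^ 2 + e * (-e)) := h3.add_mul_left_right (-e)
    have h5 : u ^ 2 + e * (-e) = v ^ 2 := by linear_combination h1
    rw [h5] at h4
    exact (IsCoprime.pow_right_iff (by norm_num : 0 < 2)).1 h4
  exact ⟨hu2, hu3, huv, huw, hev⟩

theorem desc_gt {u e v : ℤ} (hu : 0 < u) (he : 0 < e) (hv : 0 < v)
    (h1 : u ^ 2 = e ^ 2 + v ^ 2) : v < u := by
  by_contra hcon
  rw [not_lt] at hcon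
  nlinarith [mul_pos he he]

theorem desc_isCoprime_sum_diff {u v : ℤ} (huv : IsCoprime u v) (hodd : (u + v) % 2 = 1) :
    IsCoprime (u + v) (u - v) := by
  have h2 : IsCoprime (u + v) 2 := desc_isCoprime_two hodd
  have h3 : IsCoprime (v + u * 1) u := huv.symm.add_mul_left_left 1
  have h3' : IsCoprime (u + v) u := by
    have : v + u * 1 = u + v := by ring
    rwa [this] at h3
  have h4 : IsCoprime (u + v) (2 * u) := h2.mul_right h3'
  have h5 : IsCoprime (u + v) (2 * u + (u + v) * (-1)) := h4.add_mul_left_right (-1)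
  have : 2 * u + (u + v) * (-1) = u - v := by ring
  rwa [this] at h5

theorem desc_mod8_aux (u v w R S P Q : ℤ) (hr : u + v = R) (hs : u - v = S) (hp : u + w = P)
    (hq : u - w = Q) (hR : R % 8 = 1) (hS : S % 8 = 1) (hP : P % 8 = 1) (hQ : Q % 8 = 1) :
    (v + w) % 8 = 0 ∧ (v - w) % 8 = 0 := by
  omega

theorem desc_parity_aux (U E V : ℤ) (h : U = E + V) (hU : U % 2 = 1) (hE : E % 2 = 1) :
    V % 2 = 0 := by
  omega

theorem desc_parity_aux2 (U E V : ℤ) (h : U = 81 * E + V) (hU : U % 2 = 1) (hE : E % 2 = 1) :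
    V % 2 = 0 := by
  omega

theorem desc_final_aux (M E : ℤ) (h : 64 * M = 80 * E) (hE : E % 2 = 1) : False := by
  omega

/-- in a solution, `e` is even -/
theorem desc_e_even (u e v w : ℤ) (hu : 0 < u) (he : 0 < e) (hv : 0 < v) (hw : 0 < w)
    (hcop : IsCoprime u e)
    (h1 : u ^ 2 = e ^ 2 + v ^ 2) (h2 : u ^ 2 = 81 * e ^ 2 + w ^ 2) : e % 2 = 0 := by
  by_contra hcon
  have he1 : e % 2 = 1 := by omega
  obtain ⟨hu2, -, huv, huw, -⟩ := desc_basic u e v w hcop h1 h2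
  have hU : u ^ 2 % 2 = 1 := by rw [desc_sq_mod_two]; exact hu2
  have hE : e ^ 2 % 2 = 1 := by rw [desc_sq_mod_two]; exact he1
  have hv0 : v % 2 = 0 := by
    rw [← desc_sq_mod_two]; exact desc_parity_aux _ _ _ h1 hU hE
  have hw0 : w % 2 = 0 := by
    rw [← desc_sq_mod_two]; exact desc_parity_aux2 _ _ _ h2 hU hE
  have hvu : v < u := desc_gt hu he hv h1
  have hwu : w < u := by
    have h2' : u ^ 2 = (9 * e) ^ 2 + w ^ 2 := by linear_combination h2
    exact desc_gt hu (by omega) hw h2'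
  -- factorisations
  have hc1 : IsCoprime (u + v) (u - v) := desc_isCoprime_sum_diff huv (by omega)
  have hc2 : IsCoprime (u + w) (u - w) := desc_isCoprime_sum_diff huw (by omega)
  have hp1 : (u + v) * (u - v) = e ^ 2 := by linear_combination h1
  have hp1' : (u - v) * (u + v) = e ^ 2 := by linear_combination h1
  have hp2 : (u + w) * (u - w) = (9 * e) ^ 2 := by linear_combination h2
  have hp2' : (u - w) * (u + w) = (9 * e) ^ 2 := by linear_combination h2
  obtain ⟨r, hr, -⟩ := desc_pos_sq hc1 hp1 (by omega)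
  obtain ⟨s, hs, -⟩ := desc_pos_sq hc1.symm hp1' (by omega)
  obtain ⟨p, hp, -⟩ := desc_pos_sq hc2 hp2 (by omega)
  obtain ⟨q, hq, -⟩ := desc_pos_sq hc2.symm hp2' (by omega)
  have hr8 : r ^ 2 % 8 = 1 := desc_odd_sq_mod_eight r (by
    rw [← desc_sq_mod_two, ← hr]; omega)
  have hs8 : s ^ 2 % 8 = 1 := desc_odd_sq_mod_eight s (by
    rw [← desc_sq_mod_two, ← hs]; omega)
  have hp8 : p ^ 2 % 8 = 1 := desc_odd_sq_mod_eight p (by
    rw [← desc_sq_mod_two, ← hp]; omega)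
  have hq8 : q ^ 2 % 8 = 1 := desc_odd_sq_mod_eight q (by
    rw [← desc_sq_mod_two, ← hq]; omega)
  obtain ⟨hm8, hn8⟩ := desc_mod8_aux u v w _ _ _ _ hr hs hp hq hr8 hs8 hp8 hq8
  obtain ⟨m, hm⟩ : ∃ m, v + w = 8 * m := ⟨(v + w) / 8, by omega⟩
  obtain ⟨n, hn⟩ : ∃ n, v - w = 8 * n := ⟨(v - w) / 8, by omega⟩
  have h3 : (v + w) * (v - w) = 80 * e ^ 2 := by linear_combination h2 - h1
  have h4 : 64 * (m * n) = 80 * e ^ 2 := by rw [← h3, hm, hn]; ring
  exact desc_final_aux _ _ h4 hE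

theorem desc_isCoprime_vw (e v w : ℤ) (hev : IsCoprime e v) (hv2 : v % 2 = 1)
    (h : v ^ 2 = 80 * e ^ 2 + w ^ 2) : IsCoprime v w := by
  have hv5 : v % 5 ≠ 0 := by
    intro hv5
    have hV : v ^ 2 % 5 = 0 := by simp [pow_two, Int.mul_emod, hv5]
    have hW : w ^ 2 % 5 = 0 := by omega
    have hw5 := desc_five_dvd_sq w hW
    obtain ⟨v', hv'⟩ : ∃ v', v = 5 * v' := ⟨v / 5, by omega⟩
    obtain ⟨w', hw'⟩ : ∃ w', w = 5 * w' := ⟨w / 5, by omega⟩
    have h5 : 5 * v' ^ 2 = 16 * e ^ 2 + 5 * w' ^ 2 := by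
      have : 25 * v' ^ 2 = 80 * e ^ 2 + 25 * w' ^ 2 := by rw [hv', hw'] at h; linear_combination h
      omega
    have hE : e ^ 2 % 5 = 0 := by omega
    have he5 := desc_five_dvd_sq e hE
    exact desc_not_dvd_of_isCoprime hev 5 (by norm_num) he5 hv5
  have h2 : IsCoprime v (2 ^ 4) := (desc_isCoprime_two hv2).pow_right
  have h5 : IsCoprime v 5 := desc_isCoprime_five hv5
  have he : IsCoprime v (e ^ 2) := hev.symm.pow_right
  have h80 : IsCoprime v (2 ^ 4 * 5 * e ^ 2) := (h2.mul_right h5).mul_right he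
  have h6 : IsCoprime v (-(2 ^ 4 * 5 * e ^ 2) + v * v) := h80.neg_right.add_mul_left_right v
  have h7 : -(2 ^ 4 * 5 * e ^ 2) + v * v = w ^ 2 := by linear_combination h
  rw [h7] at h6
  exact (IsCoprime.pow_right_iff (by norm_num : 0 < 2)).1 h6

/-- coprime positive `a`, `b` with `a b = 5 t²`: one of them is a square -/
theorem desc_five_split {a b t : ℤ} (hab : IsCoprime a b) (ha : 0 < a) (hb : 0 < b)
    (h : a * b = 5 * t ^ 2) : (∃ k : ℤ, a = k ^ 2 ∧ k ≠ 0) ∨ (∃ l : ℤ, b = l ^ 2 ∧ l ≠ 0) := by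
  have h5 : (5 : ℤ) ∣ a * b := ⟨t ^ 2, h⟩
  have hprime : Prime (5 : ℤ) := by
    rw [Int.prime_iff_natAbs_prime]; norm_num
  rcases hprime.dvd_or_dvd h5 with ⟨a1, ha1⟩ | ⟨b1, hb1⟩
  · right
    have hc : IsCoprime b a1 := by
      rw [ha1] at hab
      exact (IsCoprime.of_mul_left_right hab).symm
    have hprod : b * a1 = t ^ 2 := by
      have : 5 * (b * a1) = 5 * t ^ 2 := by rw [← h, ha1]; ring
      omega
    exact desc_pos_sq hc hprod hb
  · left
    have hc : IsCoprime a b1 := by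
      rw [hb1] at hab
      exact IsCoprime.of_mul_right_right hab
    have hprod : a * b1 = t ^ 2 := by
      have : 5 * (a * b1) = 5 * t ^ 2 := by rw [← h, hb1]; ring
      omega
    exact desc_pos_sq hc hprod ha

theorem desc_gt' {u v X : ℤ} (hu : 0 < u) (hX : 0 < X) (hv : 0 < v)
    (h1 : u ^ 2 = X + v ^ 2) : v < u := by
  by_contra hcon
  rw [not_lt] at hcon
  nlinarith

theorem desc_abs_le_sq (p : ℤ) : |p| ≤ p ^ 2 := by
  rcases abs_cases p with ⟨h, _⟩ | ⟨h, _⟩ <;> rw [h] <;> nlinarith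

theorem desc_quarter_aux (X Y : ℤ) (h : 4 * X = 4 * Y) : X = Y := by omega

/-- the descent step on integers -/
theorem desc_step (u e v w : ℤ) (hu : 0 < u) (he : 0 < e) (hv : 0 < v) (hw : 0 < w)
    (hcop : IsCoprime u e)
    (h1 : u ^ 2 = e ^ 2 + v ^ 2) (h2 : u ^ 2 = 81 * e ^ 2 + w ^ 2) :
    ∃ (p s : ℤ) (B C : ℚ), p ≠ 0 ∧ s ≠ 0 ∧ |p| < u ∧ ((p : ℚ) / s) ^ 2 = B ^ 2 + 1 ∧
      ((p : ℚ) / s) ^ 2 = C ^ 2 + 81 ∧ B ≠ 0 ∧ C ≠ 0 := by
  obtain ⟨hu2, -, huv, huw, hev⟩ := desc_basic u e v w hcop h1 h2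
  have he0 := desc_e_even u e v w hu he hv hw hcop h1 h2
  have hU : u ^ 2 % 2 = 1 := by rw [desc_sq_mod_two]; exact hu2
  have hE : e ^ 2 % 2 = 0 := by rw [desc_sq_mod_two]; exact he0
  have hv1 : v % 2 = 1 := by
    rw [← desc_sq_mod_two]; omega
  have hw1 : w % 2 = 1 := by
    rw [← desc_sq_mod_two]; omega
  have hvu : v < u := desc_gt hu he hv h1
  have hwu : w < u := desc_gt' hu (by positivity) hw h2
  have h3 : v ^ 2 = 80 * e ^ 2 + w ^ 2 := by linear_combination h2 - h1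
  have hwv : w < v := desc_gt' hv (by positivity) hw h3
  have hvw : IsCoprime v w := desc_isCoprime_vw e v w hev hv1 h3
  obtain ⟨e1, he1⟩ : ∃ e1, e = 2 * e1 := ⟨e / 2, by omega⟩
  obtain ⟨a, ha⟩ : ∃ a, u + v = 2 * a := ⟨(u + v) / 2, by omega⟩
  obtain ⟨b, hb⟩ : ∃ b, u - v = 2 * b := ⟨(u - v) / 2, by omega⟩
  obtain ⟨a', ha'⟩ : ∃ a', u + w = 2 * a' := ⟨(u + w) / 2, by omega⟩
  obtain ⟨b', hb'⟩ : ∃ b', u - w = 2 * b' := ⟨(u - w) / 2, by omega⟩
  have hu_ab : u = a + b := by omega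
  have hv_ab : v = a - b := by omega
  have hu_ab' : u = a' + b' := by omega
  have hw_ab' : w = a' - b' := by omega
  have hab : a * b = e1 ^ 2 := by
    apply desc_quarter_aux
    rw [hu_ab, hv_ab, he1] at h1
    linear_combination h1
  have hab' : a' * b' = (9 * e1) ^ 2 := by
    apply desc_quarter_aux
    rw [hu_ab', hw_ab', he1] at h2
    linear_combination h2
  have hcab : IsCoprime a b := desc_isCoprime_half huv hu_ab hv_ab
  have hcab' : IsCoprime a' b' := desc_isCoprime_half huw hu_ab' hw_ab'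
  obtain ⟨r, hr, hr0⟩ := desc_pos_sq hcab hab (by omega)
  obtain ⟨s, hs, hs0⟩ := desc_pos_sq hcab.symm (by rw [mul_comm]; exact hab) (by omega)
  obtain ⟨p, hp, hp0⟩ := desc_pos_sq hcab' hab' (by omega)
  obtain ⟨q, hq, hq0⟩ := desc_pos_sq hcab'.symm (by rw [mul_comm]; exact hab') (by omega)
  -- the relations between r, s, p, q
  have hsum : r ^ 2 + s ^ 2 = p ^ 2 + q ^ 2 := by rw [← hr, ← hs, ← hp, ← hq]; omega
  have hprod : p ^ 2 * q ^ 2 = 81 * (r ^ 2 * s ^ 2) := by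
    rw [← hr, ← hs, ← hp, ← hq, hab, hab']; ring
  have hvrs : v = r ^ 2 - s ^ 2 := by rw [← hr, ← hs]; exact hv_ab
  have hwpq : w = p ^ 2 - q ^ 2 := by rw [← hp, ← hq]; exact hw_ab'
  -- third factorisation
  have hv'' : v = (p ^ 2 - s ^ 2) + (r ^ 2 - p ^ 2) := by rw [hvrs]; ring
  have hw'' : w = (p ^ 2 - s ^ 2) - (r ^ 2 - p ^ 2) := by rw [hwpq]; linear_combination hsum
  have hc'' : IsCoprime (p ^ 2 - s ^ 2) (r ^ 2 - p ^ 2) := desc_isCoprime_half hvw hv'' hw''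
  have hpos1 : 0 < p ^ 2 - s ^ 2 := by omega
  have hpos2 : 0 < r ^ 2 - p ^ 2 := by omega
  have hprod'' : (p ^ 2 - s ^ 2) * (r ^ 2 - p ^ 2) = 5 * (4 * e1) ^ 2 := by
    apply desc_quarter_aux
    have h4 : v ^ 2 - w ^ 2 = 80 * (2 * e1) ^ 2 := by rw [← he1]; linear_combination h3
    rw [hv'', hw''] at h4
    linear_combination h4
  have hsumQ : (r : ℚ) ^ 2 + s ^ 2 = p ^ 2 + q ^ 2 := by exact_mod_cast hsum
  have hprodQ : (p : ℚ) ^ 2 * q ^ 2 = 81 * (r ^ 2 * s ^ 2) := by exact_mod_cast hprod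
  have hrQ : (r : ℚ) ≠ 0 := by exact_mod_cast hr0
  have hsQ : (s : ℚ) ≠ 0 := by exact_mod_cast hs0
  have hpQ : (p : ℚ) ≠ 0 := by exact_mod_cast hp0
  have hqQ : (q : ℚ) ≠ 0 := by exact_mod_cast hq0
  rcases desc_five_split hc'' hpos1 hpos2 hprod'' with ⟨k, hk, hk0⟩ | ⟨l, hl, hl0⟩
  · have hkQ : (p : ℚ) ^ 2 - s ^ 2 = k ^ 2 := by exact_mod_cast hk
    have hkQ0 : (k : ℚ) ≠ 0 := by exact_mod_cast hk0
    refine ⟨p, s, k / s, p * k / (r * s), hp0, hs0, ?_, ?_, ?_, ?_, ?_⟩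
    · have := desc_abs_le_sq p
      omega
    · field_simp
      linear_combination hkQ
    · field_simp
      linear_combination (p : ℚ) ^ 2 * hsumQ + (p : ℚ) ^ 2 * hkQ + hprodQ
    · exact div_ne_zero hkQ0 hsQ
    · exact div_ne_zero (mul_ne_zero hpQ hkQ0) (mul_ne_zero hrQ hsQ)
  · have hlQ : (r : ℚ) ^ 2 - p ^ 2 = l ^ 2 := by exact_mod_cast hl
    have hlQ0 : (l : ℚ) ≠ 0 := by exact_mod_cast hl0
    refine ⟨q, s, l / s, q * l / (r * s), hq0, hs0, ?_, ?_, ?_, ?_, ?_⟩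
    · have := desc_abs_le_sq q
      omega
    · field_simp
      linear_combination -hsumQ + hlQ
    · field_simp
      linear_combination (q : ℚ) ^ 2 * hlQ + hprodQ
    · exact div_ne_zero hlQ0 hsQ
    · exact div_ne_zero (mul_ne_zero hqQ hlQ0) (mul_ne_zero hrQ hsQ)

theorem desc_rat_sq_ne_five (s : ℚ) : s ^ 2 ≠ 5 := by
  intro h
  have h5 : IsSquare (5 : ℚ) := ⟨s, by rw [← h]; ring⟩
  rw [Rat.isSquare_iff] at h5
  have h5' : IsSquare (5 : ℤ) := by simpa using h5.1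
  obtain ⟨r, hr⟩ := h5'
  have hr2 : r * r = |r| * |r| := by rw [abs_mul_abs_self]
  rw [hr2] at hr
  have h0 : 0 ≤ |r| := abs_nonneg r
  have h3 : |r| < 3 := by nlinarith
  interval_cases |r| <;> omega

/-- an integer which is the square of a nonzero rational is the square of a positive integer -/
theorem desc_int_sq_of_rat_sq (n : ℤ) (t : ℚ) (ht : t ≠ 0) (h : t ^ 2 = n) :
    ∃ v : ℤ, 0 < v ∧ n = v ^ 2 := by
  have h1 : IsSquare ((n : ℤ) : ℚ) := ⟨t, by rw [← h]; ring⟩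
  rw [Rat.isSquare_intCast_iff] at h1
  obtain ⟨v0, hv0⟩ := h1
  have hv00 : v0 ≠ 0 := by
    rintro rfl
    have hn0 : n = 0 := by simpa using hv0
    rw [hn0] at h
    exact ht (by simpa using h)
  refine ⟨|v0|, abs_pos.2 hv00, ?_⟩
  rw [sq_abs, hv0]; ring

/-- no rational `A, B, C` with `A² = B² + 1 = C² + 81` and `B C ≠ 0` -/
theorem desc_no_sol : ∀ (n : ℕ) (A B C : ℚ), A.num.natAbs = n → A ^ 2 = B ^ 2 + 1 →
    A ^ 2 = C ^ 2 + 81 → B ≠ 0 → C ≠ 0 → False := by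
  intro n
  induction n using Nat.strong_induction_on with
  | _ n ih =>
    intro A B C hn hAB hAC hB hC
    have hA0 : A ≠ 0 := by
      rintro rfl
      have : (0 : ℚ) < B ^ 2 + 1 := by positivity
      rw [← hAB] at this
      simp at this
    have hnum0 : A.num ≠ 0 := Rat.num_ne_zero.2 hA0
    have hden : (0 : ℤ) < (A.den : ℤ) := by exact_mod_cast A.den_pos
    have hdenQ : ((A.den : ℤ) : ℚ) ≠ 0 := by exact_mod_cast A.den_ne_zero
    have hA : A = (A.num : ℚ) / ((A.den : ℤ) : ℚ) := by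
      have := Rat.num_div_den A
      push_cast
      exact this.symm
    have hcop : IsCoprime |A.num| (A.den : ℤ) := by
      rw [Int.isCoprime_iff_gcd_eq_one]
      have := A.reduced
      simpa [Int.gcd, Nat.Coprime, Int.natAbs_abs] using this
    -- v
    have hB2 : (B * (A.den : ℤ)) ^ 2 = ((|A.num| ^ 2 - (A.den : ℤ) ^ 2 : ℤ) : ℚ) := by
      have h1 : (A * (A.den : ℤ)) ^ 2 = ((|A.num| ^ 2 : ℤ) : ℚ) := by
        have : A * (A.den : ℤ) = A.num := by
          have := Rat.mul_den_eq_num A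
          push_cast
          exact this
        rw [this, sq_abs]; push_cast; ring
      push_cast at h1 ⊢
      linear_combination h1 - ((A.den : ℚ)) ^ 2 * hAB
    have hC2 : (C * (A.den : ℤ)) ^ 2 = ((|A.num| ^ 2 - 81 * (A.den : ℤ) ^ 2 : ℤ) : ℚ) := by
      have h1 : (A * (A.den : ℤ)) ^ 2 = ((|A.num| ^ 2 : ℤ) : ℚ) := by
        have : A * (A.den : ℤ) = A.num := by
          have := Rat.mul_den_eq_num A
          push_cast
          exact this
        rw [this, sq_abs]; push_cast; ring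
      push_cast at h1 ⊢
      linear_combination h1 - ((A.den : ℚ)) ^ 2 * hAC
    obtain ⟨v, hv, hv2⟩ := desc_int_sq_of_rat_sq _ _ (mul_ne_zero hB hdenQ) hB2
    obtain ⟨w, hw, hw2⟩ := desc_int_sq_of_rat_sq _ _ (mul_ne_zero hC hdenQ) hC2
    obtain ⟨p, s, B', C', hp0, hs0, hpu, hAB', hAC', hB', hC'⟩ :=
      desc_step |A.num| (A.den : ℤ) v w (abs_pos.2 hnum0) hden hv hw hcop
        (by linear_combination hv2) (by linear_combination hw2)
    have hlt : ((p : ℚ) / s).num.natAbs < n := by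
      have h1 : ((p : ℚ) / s).num ∣ p := by
        have := Rat.num_dvd p hs0
        rwa [Rat.divInt_eq_div] at this
      have h2 : ((p : ℚ) / s).num.natAbs ≤ p.natAbs :=
        Nat.le_of_dvd (Int.natAbs_pos.2 hp0) (Int.natAbs_dvd_natAbs.2 h1)
      have h3 : p.natAbs < n := by
        rw [← hn]
        have h4 : (p.natAbs : ℤ) < (A.num.natAbs : ℤ) := by
          rw [Int.natCast_natAbs, Int.natCast_natAbs]; exact hpu
        exact_mod_cast h4
      omega
    exact ih _ hlt _ B' C' rfl hAB' hAC' hB' hC'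

/-- The curve `y² = x (x - 1) (x - 81)` (15a2) has no rational point with `y ≠ 0`. -/
theorem rational_points_15a2 (x y : ℚ) (h : y ^ 2 = x * (x - 1) * (x - 81)) : y = 0 := by
  by_contra hy
  have h2y : 2 * y ≠ 0 := mul_ne_zero two_ne_zero hy
  refine desc_no_sol _ ((x ^ 2 - 81) / (2 * y)) (((x - 1) ^ 2 + 80) / (2 * y))
    (((x - 81) ^ 2 - 6480) / (2 * y)) rfl ?_ ?_ ?_ ?_
  · field_simp
    linear_combination (-4 : ℚ) * h
  · field_simp
    linear_combination (-324 : ℚ) * h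
  · apply div_ne_zero _ h2y
    positivity
  · apply div_ne_zero _ h2y
    intro h0
    exact desc_rat_sq_ne_five ((x - 81) / 36) (by linear_combination h0 / 1296)

/-- The curve `Y² = X (X - 16) (X + 9)` (15a1): its rational points. -/
theorem rational_points_15a (X Y : ℚ) (h : Y ^ 2 = X * (X - 16) * (X + 9)) :
    Y = 0 ∨ X = 36 ∨ X = -4 := by
  by_cases hY : Y = 0
  · exact Or.inl hY
  right
  have hX : X - 16 ≠ 0 := by
    intro h0
    apply hY
    have : Y ^ 2 = 0 := by rw [h, h0]; ring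
    exact pow_eq_zero_iff (by norm_num) |>.1 this
  have key := rational_points_15a2 (X * (X + 9) / (X - 16))
    (Y * (X - 36) * (X + 4) / (X - 16) ^ 2) (by
      field_simp
      linear_combination ((X - 36) ^ 2 * (X + 4) ^ 2) * h)
  have h1 : Y * (X - 36) * (X + 4) = 0 := by
    rcases div_eq_zero_iff.1 key with h1 | h1
    · exact h1
    · exact absurd (pow_eq_zero_iff (by norm_num) |>.1 h1) hX
  rcases mul_eq_zero.1 h1 with h2 | h2
  · rcases mul_eq_zero.1 h2 with h3 | h3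
    · exact absurd h3 hY
    · left; linarith
  · right; linarith

end Fermat.Agent.S51lib
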