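/-
S51 piece S (helper20): the semistable finish.  For a semistable integral model
(`gcd(c₄, Δ) = 1` primewise) neither `c₄ = 0` nor any of the four `X₀(15)` values of `t`
is possible.
-/
import Fermat.Prelude.Def_FLTPrelim_Modularity

set_option autoImplicit false

namespace Fermat.Agent.S51lib

/-- If `5 ∣ c₄` and `5 ∣ Δ` the model is not semistable. -/
theorem semistable_five_contra (W : WeierstrassCurve ℤ) (hW : W.IsSemistableModel)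
    (h4 : (5 : ℤ) ∣ W.c₄) (hΔ5 : (5 : ℤ) ∣ W.Δ) : False :=
  hW 5 Nat.prime_five (by exact_mod_cast hΔ5) (by exact_mod_cast h4)

/-- `5 ∣ a * c³` with `5 ∤ a` gives `5 ∣ c`. -/
theorem five_dvd_of_dvd_mul_cube (a c : ℤ) (ha : ¬ (5 : ℤ) ∣ a) (h : (5 : ℤ) ∣ a * c ^ 3) :
    (5 : ℤ) ∣ c := by
  have hp : Prime (5 : ℤ) := by
    rw [Int.prime_iff_natAbs_prime]; exact Nat.prime_five
  rcases hp.dvd_or_dvd h with h1 | h1
  · exact absurd h1 ha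
  · exact hp.dvd_of_dvd_pow h1

/-- Core integer lemma: from `a * c₄³ = 5 * m * Δ` with `5 ∤ a`, `5 ∤ m` (or `25 * m`) we get
`5 ∣ c₄` and `5 ∣ Δ`. -/
theorem five_dvd_both (a m c d : ℤ) (ha : ¬ (5 : ℤ) ∣ a) (hm : ¬ (5 : ℤ) ∣ m)
    (h : a * c ^ 3 = 5 * m * d) : (5 : ℤ) ∣ c ∧ (5 : ℤ) ∣ d := by
  have hp : Prime (5 : ℤ) := by
    rw [Int.prime_iff_natAbs_prime]; exact Nat.prime_five
  have hc : (5 : ℤ) ∣ c := five_dvd_of_dvd_mul_cube a c ha ⟨m * d, by rw [h]; ring⟩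
  refine ⟨hc, ?_⟩
  obtain ⟨k, rfl⟩ := hc
  -- a * 125 k³ = 5 m d  ⇒  25 a k³ = m d
  have h2 : m * d = 5 * (5 * a * k ^ 3) := by
    have : 5 * (m * d) = 5 * (5 * (5 * a * k ^ 3)) := by linear_combination -h
    exact mul_left_cancel₀ (by norm_num) this
  rcases hp.dvd_or_dvd (⟨_, h2⟩ : (5 : ℤ) ∣ m * d) with h1 | h1
  · exact absurd h1 hm
  · exact h1

/-- Same with `25` in place of `5`. -/
theorem five_dvd_both' (a m c d : ℤ) (ha : ¬ (5 : ℤ) ∣ a) (hm : ¬ (5 : ℤ) ∣ m)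
    (h : a * c ^ 3 = 25 * m * d) : (5 : ℤ) ∣ c ∧ (5 : ℤ) ∣ d := by
  have hp : Prime (5 : ℤ) := by
    rw [Int.prime_iff_natAbs_prime]; exact Nat.prime_five
  have hc : (5 : ℤ) ∣ c := five_dvd_of_dvd_mul_cube a c ha ⟨5 * m * d, by rw [h]; ring⟩
  refine ⟨hc, ?_⟩
  obtain ⟨k, rfl⟩ := hc
  have h2 : m * d = 5 * (a * k ^ 3) := by
    have : 25 * (m * d) = 25 * (5 * (a * k ^ 3)) := by linear_combination -h
    exact mul_left_cancel₀ (by norm_num) this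
  rcases hp.dvd_or_dvd (⟨_, h2⟩ : (5 : ℤ) ∣ m * d) with h1 | h1
  · exact absurd h1 hm
  · exact h1

/-- (S) semistable finish: none of the four `t` is compatible with `gcd(c₄, Δ) = 1`. -/
theorem semistable_contra (W : WeierstrassCurve ℤ) (_hΔ : W.Δ ≠ 0) (hW : W.IsSemistableModel)
    (t : ℚ) (ht : t = -10 ∨ t = -40 ∨ t = -25 / 2 ∨ t = -25 / 8)
    (hj : (W.c₄ : ℚ) ^ 3 * t = (t ^ 2 + 10 * t + 5) ^ 3 * (W.Δ : ℚ)) : False := by
  rcases ht with rfl | rfl | rfl | rfl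
  · -- t = -10 : -10 c₄³ = 125 Δ, i.e. (-2) c₄³ = 25 Δ
    have hZ : (-2 : ℤ) * W.c₄ ^ 3 = 25 * 1 * W.Δ := by
      have : ((-2 : ℤ) * W.c₄ ^ 3 : ℚ) = ((25 * 1 * W.Δ : ℤ) : ℚ) := by
        push_cast; linear_combination (1 / 5 : ℚ) * hj
      exact_mod_cast this
    obtain ⟨h1, h2⟩ := five_dvd_both' (-2) 1 W.c₄ W.Δ (by decide) (by decide) hZ
    exact semistable_five_contra W hW h1 h2
  · -- t = -40 : -40 c₄³ = 1205³ Δ = 125 * 241³ Δ, i.e. (-8) c₄³ = 25 * 241³ Δ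
    have hZ : (-8 : ℤ) * W.c₄ ^ 3 = 25 * 241 ^ 3 * W.Δ := by
      have : ((-8 : ℤ) * W.c₄ ^ 3 : ℚ) = ((25 * 241 ^ 3 * W.Δ : ℤ) : ℚ) := by
        push_cast; linear_combination (1 / 5 : ℚ) * hj
      exact_mod_cast this
    obtain ⟨h1, h2⟩ := five_dvd_both' (-8) (241 ^ 3) W.c₄ W.Δ (by decide) (by decide) hZ
    exact semistable_five_contra W hW h1 h2
  · -- t = -25/2 : t²+10t+5 = 625/4 - 125 + 5 = 145/4; (145/4)³ = 5³ 29³ / 64
    -- -25/2 c₄³ = 125 * 29³ / 64 Δ  ⇒  -32 c₄³ = 5 * 29³ * ... check: multiply by 64/25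
    have hZ : (-32 : ℤ) * W.c₄ ^ 3 = 5 * 29 ^ 3 * W.Δ := by
      have : ((-32 : ℤ) * W.c₄ ^ 3 : ℚ) = ((5 * 29 ^ 3 * W.Δ : ℤ) : ℚ) := by
        push_cast; linear_combination (64 / 25 : ℚ) * hj
      exact_mod_cast this
    obtain ⟨h1, h2⟩ := five_dvd_both (-32) (29 ^ 3) W.c₄ W.Δ (by decide) (by decide) hZ
    exact semistable_five_contra W hW h1 h2
  · -- t = -25/8 : t²+10t+5 = 625/64 - 250/8 + 5 = (625 - 2000 + 320)/64 = -1055/64
    -- (-1055/64)³ = -5³ 211³ / 64³ ; -25/8 c₄³ = -125 * 211³/262144 Δ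
    -- ⇒ 32768 c₄³ = 5 * 211³ Δ   (multiply by -262144/25)
    have hZ : (32768 : ℤ) * W.c₄ ^ 3 = 5 * 211 ^ 3 * W.Δ := by
      have : ((32768 : ℤ) * W.c₄ ^ 3 : ℚ) = ((5 * 211 ^ 3 * W.Δ : ℤ) : ℚ) := by
        push_cast; linear_combination (-262144 / 25 : ℚ) * hj
      exact_mod_cast this
    obtain ⟨h1, h2⟩ := five_dvd_both 32768 (211 ^ 3) W.c₄ W.Δ (by decide) (by decide) hZ
    exact semistable_five_contra W hW h1 h2

/-- A nonzero integer with no prime divisor is a unit. -/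
theorem int_isUnit_of_no_prime_dvd (d : ℤ) (_hd : d ≠ 0)
    (h : ∀ p : ℕ, p.Prime → ¬ (p : ℤ) ∣ d) : d = 1 ∨ d = -1 := by
  have hn : d.natAbs = 1 := by
    by_contra hne
    obtain ⟨p, hp, hpd⟩ := Nat.exists_prime_and_dvd hne
    exact h p hp (Int.natCast_dvd.mpr hpd)
  rcases Int.natAbs_eq d with h1 | h1
  · left; rw [h1, hn]; rfl
  · right; rw [h1, hn]; rfl

theorem semistable_c4_ne_zero (W : WeierstrassCurve ℤ) (hΔ : W.Δ ≠ 0) (hW : W.IsSemistableModel) :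
    W.c₄ ≠ 0 := by
  intro h0
  have hno : ∀ p : ℕ, p.Prime → ¬ (p : ℤ) ∣ W.Δ := by
    intro p hp hd
    exact hW p hp hd (by rw [h0]; exact dvd_zero _)
  have hrel : 1728 * W.Δ = W.c₄ ^ 3 - W.c₆ ^ 2 := W.c_relation
  rw [h0] at hrel
  rcases int_isUnit_of_no_prime_dvd W.Δ hΔ hno with h1 | h1
  · rw [h1] at hrel
    nlinarith [sq_nonneg W.c₆]
  · rw [h1] at hrel
    -- c₆² = 1728, impossible: 41² = 1681 < 1728 < 1764 = 42²
    have h2 : W.c₆ ^ 2 = 1728 := by linarith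
    have h3 : W.c₆.natAbs ^ 2 = 1728 := by
      have : ((W.c₆.natAbs : ℤ)) ^ 2 = 1728 := by rw [Int.natAbs_sq]; exact h2
      exact_mod_cast this
    have h4 : W.c₆.natAbs < 42 := by
      by_contra hge
      have hge' : 42 ≤ W.c₆.natAbs := Nat.le_of_not_lt hge
      have : 42 ^ 2 ≤ W.c₆.natAbs ^ 2 := Nat.pow_le_pow_left hge' 2
      omega
    have h5 : 41 < W.c₆.natAbs := by
      by_contra hle
      have hle' : W.c₆.natAbs ≤ 41 := Nat.le_of_not_lt hle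
      have : W.c₆.natAbs ^ 2 ≤ 41 ^ 2 := Nat.pow_le_pow_left hle' 2
      omega
    omega

end Fermat.Agent.S51lib
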