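import Mathlib
import Fermat.Prelude.Def_FLTPrelim_GaloisRep
import Fermat.Agent.S51lib.GalFixed

/-!
# S51, piece T3: a reducible mod-3 representation gives a rational root of `ψ₃`
-/

set_option autoImplicit false
open WeierstrassCurve WeierstrassCurve.Affine WeierstrassCurve.Affine.Point

namespace Fermat.Agent.S51lib

section general

variable {F : Type*} [Field F]

/-- The value of the 3-division polynomial `ψ₃` at `x`. -/
def t3psi (W : WeierstrassCurve F) (x : F) : F :=
  3 * x ^ 4 + W.b₂ * x ^ 3 + 3 * W.b₄ * x ^ 2 + 3 * W.b₆ * x + W.b₈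

/-- Key identity on the curve. -/
lemma t3psi_eq_of_equation (W : WeierstrassCurve.Affine F) {x y : F} (h : W.Equation x y) :
    t3psi W x = (W.a₂ + 3 * x) * (2 * y + W.a₁ * x + W.a₃) ^ 2
      - W.a₁ * (3 * x ^ 2 + 2 * W.a₂ * x + W.a₄ - W.a₁ * y) * (2 * y + W.a₁ * x + W.a₃)
      - (3 * x ^ 2 + 2 * W.a₂ * x + W.a₄ - W.a₁ * y) ^ 2 := by
  rw [equation_iff] at h
  simp only [t3psi, WeierstrassCurve.b₂, WeierstrassCurve.b₄, WeierstrassCurve.b₆,
    WeierstrassCurve.b₈]
  linear_combination (-(12 * x + (W.a₁ ^ 2 + 4 * W.a₂))) * h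

variable [DecidableEq F]

omit [DecidableEq F] in
lemma t3_Y_ne_of_psi (W : WeierstrassCurve.Affine F) {x y : F} (h : W.Nonsingular x y)
    (hpsi : t3psi W x = 0) : y ≠ W.negY x y := by
  intro hy
  have hu : 2 * y + W.a₁ * x + W.a₃ = 0 := by
    rw [negY] at hy
    linear_combination hy
  have h1 := t3psi_eq_of_equation W h.1
  rw [hpsi, hu] at h1
  have hs : 3 * x ^ 2 + 2 * W.a₂ * x + W.a₄ - W.a₁ * y = 0 := by
    have : (3 * x ^ 2 + 2 * W.a₂ * x + W.a₄ - W.a₁ * y) ^ 2 = 0 := by linear_combination h1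
    exact pow_eq_zero_iff (two_ne_zero) |>.mp this
  rw [nonsingular_iff] at h
  rcases h.2 with h2 | h2
  · exact h2 (by linear_combination -hs)
  · exact h2 (by linear_combination hu)

/-- `x(2P) = x(P)` iff `ψ₃(x(P)) = 0`, for `P` not of order 2. -/
lemma t3_addX_eq_iff (W : WeierstrassCurve.Affine F) {x y : F} (h : W.Equation x y)
    (hy : y ≠ W.negY x y) :
    W.addX x x (W.slope x x y y) = x ↔ t3psi W x = 0 := by
  have hu : y - W.negY x y ≠ 0 := sub_ne_zero.mpr hy
  rw [slope_of_Y_ne rfl hy, t3psi_eq_of_equation W h, addX]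
  have hu' : 2 * y + W.a₁ * x + W.a₃ = y - W.negY x y := by rw [negY]; ring
  rw [hu']
  constructor
  · intro H
    field_simp at H
    linear_combination -H
  · intro H
    field_simp
    linear_combination -H

/-- 3-torsion criterion. -/
lemma t3_three_zsmul_eq_zero_iff (W : WeierstrassCurve.Affine F) {x y : F}
    (h : W.Nonsingular x y) :
    (3 : ℤ) • (Point.some x y h) = 0 ↔ t3psi W x = 0 := by
  have h3 : (3 : ℤ) • (Point.some x y h) = Point.some x y h + Point.some x y h + Point.some x y h := by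
    rw [show (3 : ℤ) = 1 + 1 + 1 by norm_num, add_smul, add_smul, one_smul]
  rw [h3]
  constructor
  · intro H
    have H2 : Point.some x y h + Point.some x y h = - Point.some x y h :=
      eq_neg_of_add_eq_zero_left H
    by_cases hy : y = W.negY x y
    · rw [add_self_of_Y_eq hy] at H2
      exact absurd (neg_eq_zero.mp H2.symm) (some_ne_zero h)
    · rw [add_self_of_Y_ne hy, neg_some] at H2
      have := (Point.some.injEq ..).mp H2 |>.1
      exact (t3_addX_eq_iff W h.1 hy).mp this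
  · intro H
    have hy := t3_Y_ne_of_psi W h H
    have hX := (t3_addX_eq_iff W h.1 hy).mpr H
    have hadd := add_self_of_Y_ne (h₁ := h) hy
    rcases (X_eq_iff (h₁ := nonsingular_add h h fun hxy => hy hxy.right) (h₂ := h)).mp hX with e | e
    · exfalso
      have e' : Point.some x y h + Point.some x y h = Point.some x y h := hadd.trans e
      exact some_ne_zero h (left_eq_add.mp e'.symm)
    · have e' : Point.some x y h + Point.some x y h = - Point.some x y h := hadd.trans e
      rw [e']; simp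

/-- The `x`-coordinate of a point (junk value `0` at the origin). -/
def t3x {W : WeierstrassCurve.Affine F} : W.Point → F
  | .zero => 0
  | .some x _ _ => x

omit [DecidableEq F] in
lemma t3x_some {W : WeierstrassCurve.Affine F} {x y : F} (h : W.Nonsingular x y) :
    t3x (Point.some x y h) = x := rfl

omit [DecidableEq F] in
lemma t3x_eq_iff {W : WeierstrassCurve.Affine F} {P Q : W.Point} (hP : P ≠ 0) (hQ : Q ≠ 0) :
    t3x P = t3x Q ↔ P = Q ∨ P = -Q := by
  rcases P with _ | ⟨x₁, y₁, h₁⟩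
  · exact absurd rfl hP
  rcases Q with _ | ⟨x₂, y₂, h₂⟩
  · exact absurd rfl hQ
  exact X_eq_iff

lemma t3psi_t3x {W : WeierstrassCurve.Affine F} {P : W.Point} (hP : P ≠ 0)
    (h3 : (3 : ℤ) • P = 0) : t3psi W (t3x P) = 0 := by
  rcases P with _ | ⟨x₁, y₁, h₁⟩
  · exact absurd rfl hP
  exact (t3_three_zsmul_eq_zero_iff W h₁).mp h3

/-- `ψ₃` as a polynomial. -/
noncomputable def t3poly (W : WeierstrassCurve F) : Polynomial F :=
  Polynomial.C 3 * Polynomial.X ^ 4 + Polynomial.C W.b₂ * Polynomial.X ^ 3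
    + Polynomial.C (3 * W.b₄) * Polynomial.X ^ 2 + Polynomial.C (3 * W.b₆) * Polynomial.X
    + Polynomial.C W.b₈

omit [DecidableEq F] in
lemma t3poly_eval (W : WeierstrassCurve F) (x : F) : (t3poly W).eval x = t3psi W x := by
  simp [t3poly, t3psi]

omit [DecidableEq F] in
lemma t3poly_natDegree (W : WeierstrassCurve F) (h3 : (3 : F) ≠ 0) :
    (t3poly W).natDegree = 4 := by
  unfold t3poly
  compute_degree!

omit [DecidableEq F] in
lemma t3poly_ne_zero (W : WeierstrassCurve F) (h3 : (3 : F) ≠ 0) : t3poly W ≠ 0 := by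
  intro h
  have := t3poly_natDegree W h3
  rw [h] at this
  simp at this

/-- A root of `ψ₃` is one of four given pairwise distinct roots. -/
lemma t3_root_mem (W : WeierstrassCurve F) (h3 : (3 : F) ≠ 0) {r₁ r₂ r₃ r₄ r : F}
    (h₁ : t3psi W r₁ = 0) (h₂ : t3psi W r₂ = 0) (h₃ : t3psi W r₃ = 0) (h₄ : t3psi W r₄ = 0)
    (h : t3psi W r = 0)
    (h12 : r₁ ≠ r₂) (h13 : r₁ ≠ r₃) (h14 : r₁ ≠ r₄) (h23 : r₂ ≠ r₃) (h24 : r₂ ≠ r₄)
    (h34 : r₃ ≠ r₄) : r = r₁ ∨ r = r₂ ∨ r = r₃ ∨ r = r₄ := by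
  by_contra hcon
  simp only [not_or] at hcon
  obtain ⟨c1, c2, c3, c4⟩ := hcon
  have hp := t3poly_ne_zero W h3
  have hmem : ∀ s, t3psi W s = 0 → s ∈ (t3poly W).roots.toFinset := by
    intro s hs
    rw [Multiset.mem_toFinset, Polynomial.mem_roots hp, Polynomial.IsRoot, t3poly_eval, hs]
  have hsub : ({r, r₁, r₂, r₃, r₄} : Finset F) ⊆ (t3poly W).roots.toFinset := by
    intro s hs
    simp only [Finset.mem_insert, Finset.mem_singleton] at hs
    rcases hs with rfl | rfl | rfl | rfl | rfl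
    · exact hmem _ h
    · exact hmem _ h₁
    · exact hmem _ h₂
    · exact hmem _ h₃
    · exact hmem _ h₄
  have hcard : ({r, r₁, r₂, r₃, r₄} : Finset F).card = 5 := by
    rw [Finset.card_insert_of_notMem, Finset.card_insert_of_notMem,
      Finset.card_insert_of_notMem, Finset.card_insert_of_notMem, Finset.card_singleton]
    · simp [h34]
    · simp [h23, h24]
    · simp [h12, h13, h14]
    · simp [c1, c2, c3, c4]
  have h1 := Finset.card_le_card hsub
  have h2 : (t3poly W).roots.toFinset.card ≤ 4 := by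
    calc (t3poly W).roots.toFinset.card ≤ Multiset.card (t3poly W).roots :=
          Multiset.toFinset_card_le _
      _ ≤ (t3poly W).natDegree := Polynomial.card_roots' _
      _ = 4 := t3poly_natDegree W h3
  omega

/-- Two independent points of order 3 generate all 3-torsion. -/
lemma t3_mem_of_two {W : WeierstrassCurve.Affine F} (h3 : (3 : F) ≠ 0) {P Q R : W.Point}
    (hP : (3 : ℤ) • P = 0) (hQ : (3 : ℤ) • Q = 0) (hR : (3 : ℤ) • R = 0)
    (hP0 : P ≠ 0) (hQ0 : Q ≠ 0) (hne : t3x P ≠ t3x Q) :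
    R = 0 ∨ R = P ∨ R = -P ∨ R = Q ∨ R = -Q ∨ R = P + Q ∨ R = -(P + Q) ∨ R = P - Q
      ∨ R = -(P - Q) := by
  by_cases hR0 : R = 0
  · exact Or.inl hR0
  have hPQ : ¬ (P = Q ∨ P = -Q) := fun h => hne ((t3x_eq_iff hP0 hQ0).mpr h)
  simp only [not_or] at hPQ
  have hS0 : P + Q ≠ 0 := fun h => hPQ.2 (by linear_combination (norm := abel) h)
  have hD0 : P - Q ≠ 0 := fun h => hPQ.1 (by linear_combination (norm := abel) h)
  have hS : (3 : ℤ) • (P + Q) = 0 := by rw [smul_add, hP, hQ, add_zero]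
  have hD : (3 : ℤ) • (P - Q) = 0 := by rw [smul_sub, hP, hQ, sub_zero]
  have d13 : t3x P ≠ t3x (P + Q) := by
    rw [Ne, t3x_eq_iff hP0 hS0]
    rintro (e | e)
    · exact hQ0 (by linear_combination (norm := abel) -e)
    · exact hPQ.1 (by linear_combination (norm := abel) hP - e)
  have d14 : t3x P ≠ t3x (P - Q) := by
    rw [Ne, t3x_eq_iff hP0 hD0]
    rintro (e | e)
    · exact hQ0 (by linear_combination (norm := abel) e)
    · exact hPQ.2 (by linear_combination (norm := abel) hP - e)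
  have d23 : t3x Q ≠ t3x (P + Q) := by
    rw [Ne, t3x_eq_iff hQ0 hS0]
    rintro (e | e)
    · exact hP0 (by linear_combination (norm := abel) -e)
    · exact hPQ.1 (by linear_combination (norm := abel) e - hQ)
  have d24 : t3x Q ≠ t3x (P - Q) := by
    rw [Ne, t3x_eq_iff hQ0 hD0]
    rintro (e | e)
    · exact hPQ.2 (by linear_combination (norm := abel) hQ - e)
    · exact hP0 (by linear_combination (norm := abel) e)
  have d34 : t3x (P + Q) ≠ t3x (P - Q) := by
    rw [Ne, t3x_eq_iff hS0 hD0]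
    rintro (e | e)
    · exact hQ0 (by linear_combination (norm := abel) hQ - e)
    · exact hP0 (by linear_combination (norm := abel) hP - e)
  have key := t3_root_mem W h3 (t3psi_t3x hP0 hP) (t3psi_t3x hQ0 hQ) (t3psi_t3x hS0 hS)
    (t3psi_t3x hD0 hD) (t3psi_t3x hR0 hR) hne d13 d14 d23 d24 d34
  rcases key with k | k | k | k
  · rcases (t3x_eq_iff hR0 hP0).mp k with e | e
    · exact Or.inr (Or.inl e)
    · exact Or.inr (Or.inr (Or.inl e))
  · rcases (t3x_eq_iff hR0 hQ0).mp k with e | e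
    · exact Or.inr (Or.inr (Or.inr (Or.inl e)))
    · exact Or.inr (Or.inr (Or.inr (Or.inr (Or.inl e))))
  · rcases (t3x_eq_iff hR0 hS0).mp k with e | e
    · exact Or.inr (Or.inr (Or.inr (Or.inr (Or.inr (Or.inl e)))))
    · exact Or.inr (Or.inr (Or.inr (Or.inr (Or.inr (Or.inr (Or.inl e))))))
  · rcases (t3x_eq_iff hR0 hD0).mp k with e | e
    · exact Or.inr (Or.inr (Or.inr (Or.inr (Or.inr (Or.inr (Or.inr (Or.inl e)))))))
    · exact Or.inr (Or.inr (Or.inr (Or.inr (Or.inr (Or.inr (Or.inr (Or.inr e)))))))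

end general

section overQBar

local notation "QBar" => AlgebraicClosure ℚ

lemma t3psi_baseChange (E : WeierstrassCurve ℚ) (x : ℚ) :
    t3psi (E⁄QBar) (algebraMap ℚ QBar x) = algebraMap ℚ QBar (t3psi E x) := by
  have e2 : (E⁄QBar).b₂ = algebraMap ℚ QBar E.b₂ := WeierstrassCurve.map_b₂ ..
  have e4 : (E⁄QBar).b₄ = algebraMap ℚ QBar E.b₄ := WeierstrassCurve.map_b₄ ..
  have e6 : (E⁄QBar).b₆ = algebraMap ℚ QBar E.b₆ := WeierstrassCurve.map_b₆ ..
  have e8 : (E⁄QBar).b₈ = algebraMap ℚ QBar E.b₈ := WeierstrassCurve.map_b₈ ..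
  simp only [t3psi, e2, e4, e6, e8, map_add, map_mul, map_pow, map_ofNat]

lemma t3_exists_point (E : WeierstrassCurve ℚ) (hΔ : E.Δ ≠ 0) :
    ∃ (x y : QBar) (_ : (E⁄QBar).Nonsingular x y), t3psi (E⁄QBar) x = 0 := by
  have h3 : (3 : QBar) ≠ 0 := by norm_num
  obtain ⟨x, hx⟩ := IsAlgClosed.exists_root (t3poly (E⁄QBar)) (by
    rw [Polynomial.degree_eq_natDegree (t3poly_ne_zero _ h3), t3poly_natDegree _ h3]
    norm_num)
  set q : Polynomial QBar := Polynomial.X ^ 2
    + Polynomial.C ((E⁄QBar).a₁ * x + (E⁄QBar).a₃) * Polynomial.X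
    - Polynomial.C (x ^ 3 + (E⁄QBar).a₂ * x ^ 2 + (E⁄QBar).a₄ * x + (E⁄QBar).a₆) with hq
  have hqdeg : q.natDegree = 2 := by
    rw [hq]
    compute_degree!
  have hq0 : q ≠ 0 := by
    intro h
    rw [h] at hqdeg
    simp at hqdeg
  obtain ⟨y, hy⟩ := IsAlgClosed.exists_root q (by
    rw [Polynomial.degree_eq_natDegree hq0, hqdeg]
    norm_num)
  have heq : (E⁄QBar).Equation x y := by
    rw [equation_iff]
    rw [Polynomial.IsRoot, hq] at hy
    simp only [Polynomial.eval_sub, Polynomial.eval_add, Polynomial.eval_pow, Polynomial.eval_X,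
      Polynomial.eval_mul, Polynomial.eval_C] at hy
    linear_combination hy
  have hΔK : (E⁄QBar).Δ ≠ 0 := by
    have e : (E⁄QBar).Δ = algebraMap ℚ QBar E.Δ := WeierstrassCurve.map_Δ ..
    rw [e]
    exact fun h => hΔ (algebraMap_QBar_injective (by rw [h, _root_.map_zero]))
  refine ⟨x, y, (equation_iff_nonsingular_of_Δ_ne_zero hΔK).mp heq, ?_⟩
  rw [← t3poly_eval]
  exact hx

lemma t3x_smul (E : WeierstrassCurve ℚ) (σ : QBar ≃ₐ[ℚ] QBar) (P : (E⁄QBar).Point)
    (hP : P ≠ 0) : t3x (σ • P) = σ (t3x P) := by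
  rcases P with _ | ⟨x, y, h⟩
  · exact absurd rfl hP
  rfl

/-- (T3) reducible mod 3 ⇒ the 3-division polynomial has a rational root. -/
theorem exists_rat_root_psi3_of_not_irreducible (E : WeierstrassCurve ℚ) (hΔ : E.Δ ≠ 0)
    (h : ¬ GaloisRepIsIrreducible (K := AlgebraicClosure ℚ) ℚ E 3) :
    ∃ x : ℚ, 3 * x ^ 4 + E.b₂ * x ^ 3 + 3 * E.b₄ * x ^ 2 + 3 * E.b₆ * x + E.b₈ = 0 := by
  have h3 : (3 : QBar) ≠ 0 := by norm_num
  unfold GaloisRepIsIrreducible at h
  rw [not_and_or] at h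
  have hnt : Nontrivial (Submodule.torsionBy ℤ (E⁄QBar).Point (3 : ℕ)) := by
    obtain ⟨x, y, hns, hpsi⟩ := t3_exists_point E hΔ
    have h3 : (3 : ℤ) • Point.some x y hns = 0 := (t3_three_zsmul_eq_zero_iff _ hns).mpr hpsi
    refine ⟨⟨⟨Point.some x y hns, ?_⟩, 0, ?_⟩⟩
    · rw [Submodule.mem_torsionBy_iff]
      exact_mod_cast h3
    · intro e
      exact some_ne_zero hns (congrArg Subtype.val e)
  rcases h with h | h
  · exact absurd hnt h
  simp only [not_forall, not_or] at h
  obtain ⟨N, hst, hbot, htop⟩ := h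
  obtain ⟨P, hPN, hP0⟩ := (Submodule.ne_bot_iff N).mp hbot
  have htors : ∀ R : Submodule.torsionBy ℤ (E⁄QBar).Point (3 : ℕ), (3 : ℤ) • R.1 = 0 := by
    intro R
    have := R.2
    rw [Submodule.mem_torsionBy_iff] at this
    exact_mod_cast this
  have hP0' : P.1 ≠ 0 := fun e => hP0 (Subtype.ext e)
  have hfix : ∀ σ : QBar ≃ₐ[ℚ] QBar, σ (t3x P.1) = t3x P.1 := by
    intro σ
    by_contra hne
    apply htop
    rw [Submodule.eq_top_iff']
    intro R
    have hQN : σ • P ∈ N := hst σ P hPN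
    have hQ0' : (σ • P).1 ≠ 0 := by
      intro e
      have e' : σ • P = 0 := Subtype.ext e
      rw [smul_eq_zero_iff_eq] at e'
      exact hP0 e'
    have hne' : t3x P.1 ≠ t3x (σ • P).1 := by
      intro e
      exact hne ((t3x_smul E σ P.1 hP0').symm.trans e.symm)
    rcases t3_mem_of_two h3 (htors P) (htors (σ • P)) (htors R) hP0' hQ0' hne' with
      e | e | e | e | e | e | e | e | e
    · have : R = 0 := Subtype.ext e
      rw [this]; exact N.zero_mem
    · have : R = P := Subtype.ext e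
      rw [this]; exact hPN
    · have : R = -P := Subtype.ext e
      rw [this]; exact N.neg_mem hPN
    · have : R = σ • P := Subtype.ext e
      rw [this]; exact hQN
    · have : R = -(σ • P) := Subtype.ext e
      rw [this]; exact N.neg_mem hQN
    · have : R = P + σ • P := Subtype.ext e
      rw [this]; exact N.add_mem hPN hQN
    · have : R = -(P + σ • P) := Subtype.ext e
      rw [this]; exact N.neg_mem (N.add_mem hPN hQN)
    · have : R = P - σ • P := Subtype.ext e
      rw [this]; exact N.sub_mem hPN hQN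
    · have : R = -(P - σ • P) := Subtype.ext e
      rw [this]; exact N.neg_mem (N.sub_mem hPN hQN)
  obtain ⟨q, hq⟩ := rat_of_galois_fixed _ hfix
  refine ⟨q, ?_⟩
  have hroot : t3psi (E⁄QBar) (t3x P.1) = 0 := t3psi_t3x hP0' (htors P)
  rw [← hq, t3psi_baseChange] at hroot
  have := algebraMap_QBar_injective (hroot.trans (_root_.map_zero _).symm)
  unfold t3psi at this
  exact this

end overQBar

end Fermat.Agent.S51lib
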