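/-
S51 pieces (6) + (6') (helper20): a proper nonzero Galois-stable subspace of `E[p]`
(with `#E[p] ≤ p²`) is a line, generated by a point `P` all of whose conjugates are
multiples of `P`.
-/
import Fermat.Prelude.Def_FLTPrelim_GaloisRep
import Mathlib

set_option autoImplicit false

open WeierstrassCurve WeierstrassCurve.Affine

namespace Fermat.Agent.S51lib

/-- (6) a proper nonzero subspace of a `ZMod p`-space with at most `p²` elements is a line. -/
theorem exists_generator_of_ne_bot_ne_top (p : ℕ) [Fact p.Prime] {V : Type*} [AddCommGroup V]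
    [Module (ZMod p) V] [Finite V] (hcard : Nat.card V ≤ p ^ 2) (N : Submodule (ZMod p) V)
    (hbot : N ≠ ⊥) (htop : N ≠ ⊤) :
    ∃ v ∈ N, v ≠ 0 ∧ ∀ w ∈ N, ∃ k : ℕ, w = k • v := by
  have hp : p.Prime := Fact.out
  have : Module.Finite (ZMod p) V := Module.Finite.of_finite
  -- `finrank V ≤ 2`
  have hV : Module.finrank (ZMod p) V ≤ 2 := by
    have h1 : Nat.card V = p ^ Module.finrank (ZMod p) V := by
      rw [Module.natCard_eq_pow_finrank (K := ZMod p) (V := V), Nat.card_zmod]
    rw [h1] at hcard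
    exact (Nat.pow_le_pow_iff_right hp.one_lt).mp hcard
  -- `finrank N < finrank V`
  have hlt : Module.finrank (ZMod p) N < Module.finrank (ZMod p) V := Submodule.finrank_lt htop
  -- `finrank N ≠ 0`
  have hpos : Module.finrank (ZMod p) N ≠ 0 := by
    intro h0
    exact hbot (Submodule.finrank_eq_zero.mp h0)
  have hone : Module.finrank (ZMod p) N = 1 := by omega
  obtain ⟨v, hv0, hv⟩ := finrank_eq_one_iff'.mp hone
  refine ⟨(v : V), v.2, ?_, ?_⟩
  · intro h
    exact hv0 (Subtype.ext h)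
  · intro w hw
    obtain ⟨c, hc⟩ := hv ⟨w, hw⟩
    refine ⟨c.val, ?_⟩
    have h2 : (c • v : N) = (c.val : ZMod p) • v := by
      rw [ZMod.natCast_zmod_val]
    have h3 : ((c.val : ZMod p) • v : N) = c.val • v := Nat.cast_smul_eq_nsmul (ZMod p) c.val v
    have h4 : (w : V) = ((c.val • v : N) : V) := by
      rw [← h3, ← h2, hc]
    rw [h4]
    simp

/-- (6') packaged for the Galois representation: a Galois-stable proper nonzero `N ⊆ E[p]`
gives a point `P ≠ 0` of order `p` all of whose conjugates are multiples of `P`. -/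
theorem exists_point_of_stable {R : Type*} [CommRing R] {K : Type*} [Field K] [DecidableEq K]
    [Algebra R K] (S : Type*) [CommRing S] [Algebra R S] [Algebra S K] [IsScalarTower R S K]
    (W' : Affine R) (p : ℕ) [Fact p.Prime]
    (hfin : Finite (Submodule.torsionBy ℤ (W'⁄K).Point p))
    (hcard : Nat.card (Submodule.torsionBy ℤ (W'⁄K).Point p) ≤ p ^ 2)
    (N : Submodule (ZMod p) (Submodule.torsionBy ℤ (W'⁄K).Point p))
    (hN : Point.IsGaloisStable S N) (hbot : N ≠ ⊥) (htop : N ≠ ⊤) :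
    ∃ P : (W'⁄K).Point, P ≠ 0 ∧ p • P = 0 ∧
      ∀ σ : K ≃ₐ[S] K, ∃ k : ℕ, σ • P = k • P := by
  have := hfin
  obtain ⟨v, hvN, hv0, hv⟩ := exists_generator_of_ne_bot_ne_top p hcard N hbot htop
  refine ⟨(v : (W'⁄K).Point), ?_, ?_, ?_⟩
  · intro h
    exact hv0 (Subtype.ext h)
  · have h := v.2
    rw [Submodule.mem_torsionBy_iff] at h
    rw [← Nat.cast_smul_eq_nsmul ℤ]
    exact h
  · intro σ
    obtain ⟨k, hk⟩ := hv (σ • v) (hN σ v hvN)
    refine ⟨k, ?_⟩
    have h1 := congrArg (fun x : Submodule.torsionBy ℤ (W'⁄K).Point p => (x : (W'⁄K).Point)) hk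
    have e : ((σ • v : Submodule.torsionBy ℤ (W'⁄K).Point p) : (W'⁄K).Point)
        = σ • (v : (W'⁄K).Point) := rfl
    rw [← e]
    simpa using h1

end Fermat.Agent.S51lib
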