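import Fermat.Agent.S51lib.T5Tors
import Fermat.Agent.S51lib.TorsionCard
import Fermat.Agent.S51lib.TorsionGen
import Fermat.Agent.S51lib.GalFixed

/-!
# S51, piece T5: a reducible mod-5 representation gives a rational point of `X₀(5)`
-/

set_option autoImplicit false
open WeierstrassCurve WeierstrassCurve.Affine WeierstrassCurve.Affine.Point

namespace Fermat.Agent.S51lib

section overQBar

local notation "QBar" => AlgebraicClosure ℚ

theorem t5_tB6_smul (E : WeierstrassCurve ℚ) (σ : QBar ≃ₐ[ℚ] QBar) (x : QBar) :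
    σ (tB6 (E⁄QBar) x) = tB6 (E⁄QBar) (σ x) := by
  have e2 : (E⁄QBar).b₂ = algebraMap ℚ QBar E.b₂ := WeierstrassCurve.map_b₂ ..
  have e4 : (E⁄QBar).b₄ = algebraMap ℚ QBar E.b₄ := WeierstrassCurve.map_b₄ ..
  have e6 : (E⁄QBar).b₆ = algebraMap ℚ QBar E.b₆ := WeierstrassCurve.map_b₆ ..
  simp only [tB6, e2, e4, e6, map_add, map_mul, map_pow, map_ofNat, AlgEquiv.commutes]

theorem t5_tB8_smul (E : WeierstrassCurve ℚ) (σ : QBar ≃ₐ[ℚ] QBar) (x : QBar) :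
    σ (tB8 (E⁄QBar) x) = tB8 (E⁄QBar) (σ x) := by
  have e2 : (E⁄QBar).b₂ = algebraMap ℚ QBar E.b₂ := WeierstrassCurve.map_b₂ ..
  have e4 : (E⁄QBar).b₄ = algebraMap ℚ QBar E.b₄ := WeierstrassCurve.map_b₄ ..
  have e6 : (E⁄QBar).b₆ = algebraMap ℚ QBar E.b₆ := WeierstrassCurve.map_b₆ ..
  have e8 : (E⁄QBar).b₈ = algebraMap ℚ QBar E.b₈ := WeierstrassCurve.map_b₈ ..
  simp only [tB8, e2, e4, e6, e8, map_add, map_mul, map_pow, map_ofNat, AlgEquiv.commutes]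

theorem t5_tpar_smul (E : WeierstrassCurve ℚ) (σ : QBar ≃ₐ[ℚ] QBar) (x : QBar) :
    σ (tpar (E⁄QBar) x) = tpar (E⁄QBar) (σ x) := by
  simp only [tpar, map_sub, map_add, map_neg, map_div₀, map_pow, map_ofNat, t5_tB6_smul,
    t5_tB8_smul]

theorem t5_xc_smul (E : WeierstrassCurve ℚ) (σ : QBar ≃ₐ[ℚ] QBar) (P : (E⁄QBar).Point) :
    xc (E⁄QBar) (σ • P) = σ (xc (E⁄QBar) P) := by
  rcases P with _ | ⟨x, y, h⟩
  · exact (map_zero σ).symm
  · rfl

/-- multiples of a point of order 5 have `x`-coordinate `x(P)` or `x(2P)`. -/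
theorem t5_xc_nsmul {F : Type*} [Field F] [DecidableEq F] (W : Affine F) {P : W.Point}
    (h5 : 5 • P = 0) (k : ℕ) (hk : k • P ≠ 0) :
    xc W (k • P) = xc W P ∨ xc W (k • P) = xc W (2 • P) := by
  have hmod : k • P = (k % 5) • P := by
    conv_lhs => rw [← Nat.div_add_mod k 5, add_nsmul, mul_nsmul, h5, nsmul_zero, zero_add]
  have hlt : k % 5 < 5 := Nat.mod_lt _ (by norm_num)
  rw [hmod] at hk ⊢
  interval_cases (k % 5)
  · exact absurd (zero_nsmul P) hk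
  · left; rw [one_nsmul]
  · right; rfl
  · right
    have e3 : (3 : ℕ) • P = -((2 : ℕ) • P) := by
      rw [eq_neg_iff_add_eq_zero, ← add_nsmul]
      exact h5
    rw [e3, xc_neg]
  · left
    have e4 : (4 : ℕ) • P = -P := by
      rw [eq_neg_iff_add_eq_zero, ← succ_nsmul]
      exact h5
    rw [e4, xc_neg]

/-- (T5) reducible mod 5 ⇒ `j = (t²+10t+5)³/t` for some rational `t ≠ 0`. -/
theorem exists_rat_param_of_not_irreducible_five (E : WeierstrassCurve ℚ) (hΔ : E.Δ ≠ 0)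
    (h : ¬ GaloisRepIsIrreducible (K := AlgebraicClosure ℚ) ℚ E 5) :
    ∃ t : ℚ, t ≠ 0 ∧ E.c₄ ^ 3 * t = (t ^ 2 + 10 * t + 5) ^ 3 * E.Δ := by
  have h5 : (5 : QBar) ≠ 0 := by norm_num
  have eΔ : (E⁄QBar).Δ = algebraMap ℚ QBar E.Δ := WeierstrassCurve.map_Δ ..
  have ec4 : (E⁄QBar).c₄ = algebraMap ℚ QBar E.c₄ := WeierstrassCurve.map_c₄ ..
  have hΔK : (E⁄QBar).Δ ≠ 0 := by
    rw [eΔ]
    exact fun h0 => hΔ (algebraMap_QBar_injective (by rw [h0, _root_.map_zero]))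
  unfold GaloisRepIsIrreducible at h
  rw [not_and_or] at h
  have hnt : Nontrivial (Submodule.torsionBy ℤ (E⁄QBar).Point (5 : ℕ)) := by
    obtain ⟨P, hP0, hP5⟩ := exists_five_torsion h5 (E⁄QBar) hΔK
    refine ⟨⟨⟨P, ?_⟩, 0, ?_⟩⟩
    · rw [Submodule.mem_torsionBy_iff]
      rw [Nat.cast_smul_eq_nsmul]
      exact hP5
    · intro e
      exact hP0 (congrArg Subtype.val e)
  rcases h with h | h
  · exact absurd hnt h
  simp only [not_forall, not_or] at h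
  obtain ⟨N, hst, hbot, htop⟩ := h
  have hroot : ∀ P : (E⁄QBar).Point, P ≠ 0 → 5 • P = 0 →
      (q5poly (E⁄QBar)).eval (xc (E⁄QBar) P) = 0 := by
    intro P hP hP5
    rw [q5poly_eval]
    exact (five_torsion_x (E⁄QBar) hP hP5).2.2.1
  obtain ⟨hfin, hcard⟩ :=
    card_torsionBy_le (E⁄QBar) 5 (q5poly (E⁄QBar)) (q5poly_ne_zero _ h5) hroot
  rw [q5poly_natDegree _ h5] at hcard
  have : Fact (Nat.Prime 5) := ⟨by norm_num⟩
  obtain ⟨P, hP0, hP5, hσ⟩ := exists_point_of_stable ℚ E 5 hfin (by norm_num at hcard ⊢; exact hcard)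
    N hst hbot htop
  obtain ⟨h6, h8, hq, -, hx2⟩ := five_torsion_x (E⁄QBar) hP0 hP5
  have hfix : ∀ σ : QBar ≃ₐ[ℚ] QBar,
      σ (tpar (E⁄QBar) (xc (E⁄QBar) P)) = tpar (E⁄QBar) (xc (E⁄QBar) P) := by
    intro σ
    obtain ⟨k, hk⟩ := hσ σ
    have hne : k • P ≠ 0 := by
      rw [← hk]
      intro e
      rw [smul_eq_zero_iff_eq] at e
      exact hP0 e
    rw [t5_tpar_smul, ← t5_xc_smul, hk]
    rcases t5_xc_nsmul (E⁄QBar) hP5 k hne with e | e
    · rw [e]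
    · rw [e, hx2]
      exact tpar_dup (E⁄QBar) _ h6 h8 hq
  obtain ⟨t, ht⟩ := rat_of_galois_fixed _ hfix
  have hj := tpar_j (E⁄QBar) _ h6 h8 hq
  have h0 := tpar_ne_zero (E⁄QBar) _ hΔK h6 h8 hq
  rw [← ht] at hj h0
  refine ⟨t, ?_, ?_⟩
  · rintro rfl
    exact h0 (_root_.map_zero _)
  · apply algebraMap_QBar_injective
    rw [eΔ, ec4] at hj
    simp only [map_mul, map_pow, map_add, map_ofNat]
    exact hj

end overQBar

end Fermat.Agent.S51lib
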