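import Fermat.Agent.S51lib.X015Cert

/-!
# S51, piece D: rational points of `X₀(15)` in the `(h, t)`-model

Given the rational points of `Y² = X (X - 16) (X + 9)` (hypothesis `hD2`, proved by descent in
`Fermat.Agent.S51lib.Descent`), the only rational points of
`(h+27)(h+3)³ t = (t²+10t+5)³ h` with `t ≠ 0` have `t ∈ {-10, -40, -25/2, -25/8}`.
-/

set_option autoImplicit false

namespace Fermat.Agent.S51lib

theorem rat_sq_ne_five (s : ℚ) : s ^ 2 ≠ 5 := by
  intro h
  have h5 : IsSquare (5 : ℚ) := ⟨s, by rw [← h]; ring⟩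
  rw [Rat.isSquare_iff] at h5
  have h5' : IsSquare (5 : ℤ) := by simpa using h5.1
  obtain ⟨r, hr⟩ := h5'
  have hr2 : r * r = |r| * |r| := by rw [abs_mul_abs_self]
  rw [hr2] at hr
  have h0 : 0 ≤ |r| := abs_nonneg r
  have h3 : |r| < 3 := by nlinarith
  interval_cases |r| <;> omega

theorem x015_G_of_param (h t : ℚ) (hh3 : h + 3 ≠ 0)
    (hF : (h + 27) * (h + 3) ^ 3 * t = (t ^ 2 + 10 * t + 5) ^ 3 * h) :
    x015G t ((t ^ 2 + 10 * t + 5) / (h + 3)) = 0 := by
  have key : x015G t ((t ^ 2 + 10 * t + 5) / (h + 3)) * (h + 3) ^ 4 = 0 := by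
    unfold x015G
    field_simp
    linear_combination (t ^ 2 + 10 * t + 5) * hF
  rcases mul_eq_zero.1 key with h1 | h1
  · exact h1
  · exact absurd (pow_eq_zero_iff (by norm_num) |>.1 h1) hh3

theorem rational_points_X0_15
    (hD2 : ∀ X Y : ℚ, Y ^ 2 = X * (X - 16) * (X + 9) → Y = 0 ∨ X = 36 ∨ X = -4)
    (h t : ℚ) (ht : t ≠ 0)
    (hF : (h + 27) * (h + 3) ^ 3 * t = (t ^ 2 + 10 * t + 5) ^ 3 * h) :
    t = -10 ∨ t = -40 ∨ t = -25 / 2 ∨ t = -25 / 8 := by
  have hT : t ^ 2 + 10 * t + 5 ≠ 0 := by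
    intro h0
    exact rat_sq_ne_five ((t + 5) / 2) (by linear_combination h0 / 4)
  have hq : t ^ 2 + 4 * t - 1 ≠ 0 := by
    intro h0
    exact rat_sq_ne_five (t + 2) (by linear_combination h0)
  have hh0 : h ≠ 0 := by
    rintro rfl
    apply ht
    linarith
  have hh3 : h + 3 ≠ 0 := by
    intro h3
    have h0 : (t ^ 2 + 10 * t + 5) ^ 3 * h = 0 := by rw [← hF, h3]; ring
    rcases mul_eq_zero.1 h0 with h1 | h1
    · exact hT (pow_eq_zero_iff (by norm_num) |>.1 h1)
    · exact hh0 h1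
  have hG := x015_G_of_param h t hh3 hF
  generalize (t ^ 2 + 10 * t + 5) / (h + 3) = y at hG
  have I1 := x015_I1 t y hG
  have I2 := x015_I2 t y hG
  have I3 := x015_I3 t y hG
  generalize x015NX t y = NX at I1 I2 I3
  generalize x015NY t y = NY at I1 I2
  generalize t ^ 2 + 4 * t - 1 = q at hq I1 I2 I3
  have hNX0 : NX ≠ 0 := by
    intro h0
    rw [h0, zero_mul] at I3
    have : t * q * (t ^ 2 * q) ≠ 0 :=
      mul_ne_zero (mul_ne_zero ht hq) (mul_ne_zero (pow_ne_zero 2 ht) hq)
    apply this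
    linear_combination I3 / 36
  have hd2 : t ^ 2 * q ≠ 0 := mul_ne_zero (pow_ne_zero 2 ht) hq
  have hd3 : t ^ 3 * q ≠ 0 := mul_ne_zero (pow_ne_zero 3 ht) hq
  obtain ⟨X, hX⟩ : ∃ X, NX = X * (t ^ 2 * q) := ⟨NX / (t ^ 2 * q), by field_simp⟩
  obtain ⟨Y, hY⟩ : ∃ Y, NY = Y * (t ^ 3 * q) := ⟨NY / (t ^ 3 * q), by field_simp⟩
  have hX0 : X ≠ 0 := by
    rintro rfl
    exact hNX0 (by rw [hX, zero_mul])
  subst hX hY
  have hXY : Y ^ 2 = X * (X - 16) * (X + 9) := by
    have h6 : t ^ 6 * q ^ 3 ≠ 0 := mul_ne_zero (pow_ne_zero 6 ht) (pow_ne_zero 3 hq)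
    have h0 : (Y ^ 2 - X * (X - 16) * (X + 9)) * (t ^ 6 * q ^ 3) = 0 := by
      linear_combination I1
    rcases mul_eq_zero.1 h0 with h1 | h1
    · linear_combination h1
    · exact absurd h1 h6
  have hI2 : t * (X * Y - 13 * X ^ 2 + 108 * X + 36 * Y) = 250 * X ^ 2 := by
    have h6 : t ^ 5 * q ^ 2 ≠ 0 := mul_ne_zero (pow_ne_zero 5 ht) (pow_ne_zero 2 hq)
    have h0 : (t * (X * Y - 13 * X ^ 2 + 108 * X + 36 * Y) - 250 * X ^ 2) * (t ^ 5 * q ^ 2) = 0 := by
      linear_combination I2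
    rcases mul_eq_zero.1 h0 with h1 | h1
    · linear_combination h1
    · exact absurd h1 h6
  clear I1 I2 I3 hNX0 hG
  rcases hD2 X Y hXY with hY | hX | hX
  · subst hY
    have h3 : X * (X - 16) * (X + 9) = 0 := by rw [← hXY]; ring
    rcases mul_eq_zero.1 h3 with h4 | h4
    · rcases mul_eq_zero.1 h4 with h5 | h5
      · exact absurd h5 hX0
      · have hX : X = 16 := by linear_combination h5
        subst hX
        right; left
        linarith
    · have hX : X = -9 := by linear_combination h4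
      subst hX
      left
      linarith
  · subst hX
    have h3 : (Y - 180) * (Y + 180) = 0 := by linear_combination hXY
    rcases mul_eq_zero.1 h3 with h4 | h4
    · have hY : Y = 180 := by linear_combination h4
      subst hY
      exfalso
      linarith
    · have hY : Y = -180 := by linear_combination h4
      subst hY
      right; right; left
      linarith
  · subst hX
    have h3 : (Y - 20) * (Y + 20) = 0 := by linear_combination hXY
    rcases mul_eq_zero.1 h3 with h4 | h4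
    · have hY : Y = 20 := by linear_combination h4
      subst hY
      exfalso
      linarith
    · have hY : Y = -20 := by linear_combination h4
      subst hY
      right; right; right
      linarith

end Fermat.Agent.S51lib
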