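import Fermat.Statements.S51
import Fermat.Agent.S51lib.T3
import Fermat.Agent.S51lib.T5
import Fermat.Agent.S51lib.A3
import Fermat.Agent.S51lib.X015
import Fermat.Agent.S51lib.Descent
import Fermat.Agent.S51lib.SemiStable

/-!
# S51: for a semistable integral Weierstrass curve, `E[3]` or `E[5]` is irreducible

Assume both are reducible.  (T3) gives a rational root of `ψ₃`, (A3) turns it into a rational
point of `X₀(3)`: `j = (h+27)(h+3)³/h`; (T5) gives a rational point of `X₀(5)`:
`j = (t²+10t+5)³/t`.  The resulting rational point of `X₀(15)` is one of four explicit points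
(map to `15a1` + 2-descent), and for those `5 ∣ c₄` and `5 ∣ Δ`, contradicting semistability.
-/

set_option autoImplicit false
open WeierstrassCurve WeierstrassCurve.Affine WeierstrassCurve.Affine.Point

namespace Fermat.Agent.S51lib

theorem s51_main (W : WeierstrassCurve ℤ) (hΔ : W.Δ ≠ 0) (hW : W.IsSemistableModel) :
    W.ModRepIsIrreducible 3 ∨ W.ModRepIsIrreducible 5 := by
  by_contra hcon
  rw [not_or] at hcon
  obtain ⟨h3, h5⟩ := hcon
  set E : WeierstrassCurve ℚ := W.map (Int.castRingHom ℚ) with hE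
  have hΔE : E.Δ ≠ 0 := by
    rw [hE, WeierstrassCurve.map_Δ]
    simpa using hΔ
  have hc4 : E.c₄ = (W.c₄ : ℚ) := by rw [hE, WeierstrassCurve.map_c₄]; rfl
  have hΔ' : E.Δ = (W.Δ : ℚ) := by rw [hE, WeierstrassCurve.map_Δ]; rfl
  obtain ⟨x, hx⟩ := exists_rat_root_psi3_of_not_irreducible E hΔE h3
  obtain ⟨t, ht0, ht⟩ := exists_rat_param_of_not_irreducible_five E hΔE h5
  rcases exists_rat_param_of_root_psi3 E hΔE x hx with h0 | ⟨h, -, hh⟩
  · rw [hc4] at h0
    exact semistable_c4_ne_zero W hΔ hW (by exact_mod_cast h0)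
  · have hF : (h + 27) * (h + 3) ^ 3 * t = (t ^ 2 + 10 * t + 5) ^ 3 * h := by
      have e1 : E.c₄ ^ 3 * t * h = (t ^ 2 + 10 * t + 5) ^ 3 * h * E.Δ := by rw [ht]; ring
      have e2 : E.c₄ ^ 3 * t * h = (h + 27) * (h + 3) ^ 3 * t * E.Δ := by
        calc E.c₄ ^ 3 * t * h = (E.c₄ ^ 3 * h) * t := by ring
          _ = (h + 27) * (h + 3) ^ 3 * E.Δ * t := by rw [hh]
          _ = _ := by ring
      exact mul_right_cancel₀ hΔE (e2.symm.trans e1)
    have hpts := rational_points_X0_15 rational_points_15a h t ht0 hF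
    exact semistable_contra W hΔ hW t hpts (by rw [← hc4, ← hΔ']; exact ht)

end Fermat.Agent.S51lib
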