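import Fermat.Agent.S51lib.T5Defs

/-!
# S51, piece T5: the algebra of points of order 5 (Tate normal form in `x`-coordinates)
-/

set_option autoImplicit false

open WeierstrassCurve WeierstrassCurve.Affine

namespace Fermat.Agent.S51lib

variable {F : Type*} [Field F]

theorem tB6_dup (W : WeierstrassCurve F) (x : F) (h6 : tB6 W x ≠ 0) :
    tB6 W (x - tB8 W x / tB6 W x) * tB6 W x ^ 3 = (tB6 W x ^ 2 - tB4 W x * tB8 W x) ^ 2 := by
  have hr := tB_relation W x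
  have h := tB6_add W x (-(tB8 W x / tB6 W x))
  rw [← sub_eq_add_neg] at h
  rw [h]
  generalize tB2 W x = B2 at *
  generalize tB4 W x = B4 at *
  generalize tB6 W x = B6 at *
  generalize tB8 W x = B8 at *
  have e : (B6 + 2 * -(B8 / B6) * B4 + (-(B8 / B6)) ^ 2 * B2 + 4 * (-(B8 / B6)) ^ 3) * B6 ^ 3
      = B6 ^ 4 - 2 * B8 * B4 * B6 ^ 2 + B8 ^ 2 * (B2 * B6) - 4 * B8 ^ 3 := by
    field_simp
    ring
  rw [e]
  linear_combination (-B8 ^ 2) * hr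

theorem tB8_dup (W : WeierstrassCurve F) (x : F) (h6 : tB6 W x ≠ 0) :
    tB8 W (x - tB8 W x / tB6 W x) * tB6 W x ^ 4 =
      -tB8 W x * (2 * tB6 W x ^ 4 - 3 * tB4 W x * tB6 W x ^ 2 * tB8 W x
        + tB4 W x ^ 2 * tB8 W x ^ 2 + tB8 W x ^ 3) := by
  have hr := tB_relation W x
  have h := tB8_add W x (-(tB8 W x / tB6 W x))
  rw [← sub_eq_add_neg] at h
  rw [h]
  generalize tB2 W x = B2 at *
  generalize tB4 W x = B4 at *
  generalize tB6 W x = B6 at *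
  generalize tB8 W x = B8 at *
  have e : (B8 + 3 * -(B8 / B6) * B6 + 3 * (-(B8 / B6)) ^ 2 * B4 + (-(B8 / B6)) ^ 3 * B2
      + 3 * (-(B8 / B6)) ^ 4) * B6 ^ 4
      = B8 * B6 ^ 4 - 3 * B8 * B6 ^ 4 + 3 * B8 ^ 2 * B4 * B6 ^ 2 - B8 ^ 3 * (B2 * B6)
        + 3 * B8 ^ 4 := by
    field_simp
    ring
  rw [e]
  linear_combination (B8 ^ 3) * hr

/-- if `x(4P) = x(P)` then `Q₅(x) = 0`. -/
theorem q5_of_quad (W : WeierstrassCurve F) (x : F) (h6 : tB6 W x ≠ 0) (h8 : tB8 W x ≠ 0)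
    (h62 : tB6 W (x - tB8 W x / tB6 W x) ≠ 0)
    (h4 : (x - tB8 W x / tB6 W x)
      - tB8 W (x - tB8 W x / tB6 W x) / tB6 W (x - tB8 W x / tB6 W x) = x) :
    q5 W x = 0 := by
  have e6 := tB6_dup W x h6
  have e8 := tB8_dup W x h6
  unfold q5
  generalize tB6 W (x - tB8 W x / tB6 W x) = C6 at *
  generalize tB8 W (x - tB8 W x / tB6 W x) = C8 at *
  generalize tB4 W x = B4 at *
  generalize tB6 W x = B6 at *
  generalize tB8 W x = B8 at *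
  -- h4 : -B8/B6 = C8/C6, i.e. -B8 * C6 = C8 * B6
  have h4' : C8 * B6 = -B8 * C6 := by
    field_simp at h4
    linear_combination -h4
  -- multiply by B6^3 and cancel B8
  have key : B8 * (B6 ^ 4 - B4 * B6 ^ 2 * B8 + B8 ^ 3) = 0 := by
    linear_combination (-(B6 ^ 3)) * h4' + e8 + B8 * e6
  rcases mul_eq_zero.1 key with h | h
  · exact absurd h h8
  · exact h

/-- With `Q₅(x) = 0`: `B₆(x₂) = B₈⁶ / B₆⁷`. -/
theorem tB6_dup_of_q5 (W : WeierstrassCurve F) (x : F) (h6 : tB6 W x ≠ 0)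
    (hq : q5 W x = 0) :
    tB6 W (x - tB8 W x / tB6 W x) * tB6 W x ^ 7 = tB8 W x ^ 6 := by
  have e6 := tB6_dup W x h6
  unfold q5 at hq
  generalize tB6 W (x - tB8 W x / tB6 W x) = C6 at *
  generalize tB4 W x = B4 at *
  generalize tB6 W x = B6 at *
  generalize tB8 W x = B8 at *
  -- B6^2 * (B6^2 - B4 B8) = -B8^3
  have h1 : B6 ^ 2 * (B6 ^ 2 - B4 * B8) = -B8 ^ 3 := by linear_combination hq
  calc C6 * B6 ^ 7 = (C6 * B6 ^ 3) * B6 ^ 4 := by ring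
    _ = (B6 ^ 2 - B4 * B8) ^ 2 * B6 ^ 4 := by rw [e6]
    _ = (B6 ^ 2 * (B6 ^ 2 - B4 * B8)) ^ 2 := by ring
    _ = B8 ^ 6 := by rw [h1]; ring

/-- With `Q₅(x) = 0`: `B₈(x₂) = -B₈⁷ / B₆⁸`. -/
theorem tB8_dup_of_q5 (W : WeierstrassCurve F) (x : F) (h6 : tB6 W x ≠ 0)
    (hq : q5 W x = 0) :
    tB8 W (x - tB8 W x / tB6 W x) * tB6 W x ^ 8 = -tB8 W x ^ 7 := by
  have e6 := tB6_dup_of_q5 W x h6 hq
  have e6' := tB6_dup W x h6
  have e8 := tB8_dup W x h6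
  unfold q5 at hq
  generalize tB6 W (x - tB8 W x / tB6 W x) = C6 at *
  generalize tB8 W (x - tB8 W x / tB6 W x) = C8 at *
  generalize tB4 W x = B4 at *
  generalize tB6 W x = B6 at *
  generalize tB8 W x = B8 at *
  -- 2 B6^4 - 3 B4 B6^2 B8 + B4^2 B8^2 + B8^3 = (B6^2 - B4 B8)^2 + Q5 = C6 * B6^3
  have h2 : C8 * B6 ^ 4 = -B8 * (C6 * B6 ^ 3) := by
    rw [e8, e6']
    linear_combination (-B8) * hq
  calc C8 * B6 ^ 8 = (C8 * B6 ^ 4) * B6 ^ 4 := by ring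
    _ = -B8 * (C6 * B6 ^ 7) := by rw [h2]; ring
    _ = -B8 ^ 7 := by rw [e6]; ring

theorem quad_of_q5 (W : WeierstrassCurve F) (x : F) (h6 : tB6 W x ≠ 0) (h8 : tB8 W x ≠ 0)
    (hq : q5 W x = 0) :
    tB6 W (x - tB8 W x / tB6 W x) ≠ 0 ∧ tB8 W (x - tB8 W x / tB6 W x) ≠ 0 ∧
      (x - tB8 W x / tB6 W x)
        - tB8 W (x - tB8 W x / tB6 W x) / tB6 W (x - tB8 W x / tB6 W x) = x := by
  have e6 := tB6_dup_of_q5 W x h6 hq
  have e8 := tB8_dup_of_q5 W x h6 hq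
  generalize tB6 W (x - tB8 W x / tB6 W x) = C6 at *
  generalize tB8 W (x - tB8 W x / tB6 W x) = C8 at *
  generalize tB6 W x = B6 at *
  generalize tB8 W x = B8 at *
  have hC6 : C6 ≠ 0 := by
    rintro rfl
    rw [zero_mul] at e6
    exact h8 (pow_eq_zero_iff (by norm_num) |>.1 e6.symm)
  have hC8 : C8 ≠ 0 := by
    rintro rfl
    rw [zero_mul] at e8
    have : B8 ^ 7 = 0 := by linear_combination e8
    exact h8 (pow_eq_zero_iff (by norm_num) |>.1 this)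
  refine ⟨hC6, hC8, ?_⟩
  have h7 : B6 ^ 7 ≠ 0 := pow_ne_zero 7 h6
  have hC6' : C6 = B8 ^ 6 / B6 ^ 7 := by
    field_simp
    exact e6
  have hC8' : C8 = -B8 ^ 7 / B6 ^ 8 := by
    field_simp
    exact e8
  rw [hC6', hC8']
  field_simp
  ring

theorem tpar_dup (W : WeierstrassCurve F) (x : F) (h6 : tB6 W x ≠ 0) (h8 : tB8 W x ≠ 0)
    (hq : q5 W x = 0) : tpar W (x - tB8 W x / tB6 W x) = tpar W x := by
  have e6 := tB6_dup_of_q5 W x h6 hq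
  have e8 := tB8_dup_of_q5 W x h6 hq
  unfold tpar
  generalize tB6 W (x - tB8 W x / tB6 W x) = C6 at *
  generalize tB8 W (x - tB8 W x / tB6 W x) = C8 at *
  generalize tB6 W x = B6 at *
  generalize tB8 W x = B8 at *
  have hC6' : C6 = B8 ^ 6 / B6 ^ 7 := by
    field_simp
    exact e6
  have hC8' : C8 = -B8 ^ 7 / B6 ^ 8 := by
    field_simp
    exact e8
  rw [hC6', hC8']
  field_simp
  ring

/-- Tate normal form parameters of a point of order 5. -/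
theorem exists_tate_param (W : WeierstrassCurve F) (x : F) (h6 : tB6 W x ≠ 0)
    (h8 : tB8 W x ≠ 0) (hq : q5 W x = 0) :
    ∃ μ b : F, μ ≠ 0 ∧ b ≠ 0 ∧ tB2 W x = μ * ((1 - b) ^ 2 - 4 * b) ∧
      tB4 W x = -μ ^ 2 * b * (1 - b) ∧ tB6 W x = μ ^ 3 * b ^ 2 ∧ tB8 W x = -μ ^ 4 * b ^ 3 ∧
      tpar W x = b - 1 / b - 11 := by
  have hr := tB_relation W x
  unfold q5 at hq
  unfold tpar
  generalize tB2 W x = B2 at *
  generalize tB4 W x = B4 at *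
  generalize tB6 W x = B6 at *
  generalize tB8 W x = B8 at *
  have hμ : B6 ^ 3 / B8 ^ 2 ≠ 0 := div_ne_zero (pow_ne_zero 3 h6) (pow_ne_zero 2 h8)
  have hb : -B8 ^ 3 / B6 ^ 4 ≠ 0 := div_ne_zero (neg_ne_zero.2 (pow_ne_zero 3 h8)) (pow_ne_zero 4 h6)
  have hB4 : B4 = (B6 ^ 4 + B8 ^ 3) / (B6 ^ 2 * B8) := by
    field_simp
    linear_combination -hq
  have hB2 : B2 = (4 * B8 + B4 ^ 2) / B6 := by
    field_simp
    linear_combination -hr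
  refine ⟨B6 ^ 3 / B8 ^ 2, -B8 ^ 3 / B6 ^ 4, hμ, hb, ?_, ?_, ?_, ?_, ?_⟩
  · rw [hB2, hB4]
    field_simp
    ring
  · rw [hB4]
    field_simp
    ring
  · field_simp
  · field_simp
  · field_simp
    ring

theorem tpar_j (W : WeierstrassCurve F) (x : F) (h6 : tB6 W x ≠ 0) (h8 : tB8 W x ≠ 0)
    (hq : q5 W x = 0) :
    W.c₄ ^ 3 * tpar W x = (tpar W x ^ 2 + 10 * tpar W x + 5) ^ 3 * W.Δ := by
  obtain ⟨μ, b, hμ, hb, h2, h4, h6', h8', ht⟩ := exists_tate_param W x h6 h8 hq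
  rw [tB_c₄ W x, tB_Δ W x, h2, h4, h6', h8', ht]
  field_simp
  ring

theorem tpar_ne_zero (W : WeierstrassCurve F) (x : F) (hΔ : W.Δ ≠ 0) (h6 : tB6 W x ≠ 0)
    (h8 : tB8 W x ≠ 0) (hq : q5 W x = 0) : tpar W x ≠ 0 := by
  obtain ⟨μ, b, hμ, hb, h2, h4, h6', h8', ht⟩ := exists_tate_param W x h6 h8 hq
  intro h0
  apply hΔ
  rw [ht] at h0
  have hb2 : b ^ 2 - 11 * b - 1 = 0 := by
    field_simp at h0
    linear_combination h0
  rw [tB_Δ W x, h2, h4, h6', h8']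
  linear_combination (μ ^ 6 * b ^ 5) * hb2

theorem tB4_add (W : WeierstrassCurve F) (x d : F) :
    tB4 W (x + d) = tB4 W x + d * tB2 W x + 6 * d ^ 2 := by
  unfold tB2 tB4
  ring

theorem q5_dup (W : WeierstrassCurve F) (x : F) (h6 : tB6 W x ≠ 0) (h8 : tB8 W x ≠ 0)
    (hq : q5 W x = 0) : q5 W (x - tB8 W x / tB6 W x) = 0 := by
  have e6 := tB6_dup_of_q5 W x h6 hq
  have e8 := tB8_dup_of_q5 W x h6 hq
  have e4 := tB4_add W x (-(tB8 W x / tB6 W x))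
  rw [← sub_eq_add_neg] at e4
  obtain ⟨μ, b, hμ, hb, h2, h4, h6', h8', -⟩ := exists_tate_param W x h6 h8 hq
  unfold q5
  rw [h6', h8'] at e6 e8 ⊢
  rw [h2, h4, h6', h8'] at e4
  generalize tB6 W (x - -μ ^ 4 * b ^ 3 / (μ ^ 3 * b ^ 2)) = C6 at *
  generalize tB8 W (x - -μ ^ 4 * b ^ 3 / (μ ^ 3 * b ^ 2)) = C8 at *
  generalize tB4 W (x - -μ ^ 4 * b ^ 3 / (μ ^ 3 * b ^ 2)) = C4 at *
  have hC6 : C6 = μ ^ 3 * b ^ 4 := by
    have h7 : (μ ^ 3 * b ^ 2) ^ 7 ≠ 0 := pow_ne_zero 7 (mul_ne_zero (pow_ne_zero 3 hμ) (pow_ne_zero 2 hb))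
    apply mul_right_cancel₀ h7
    rw [e6]
    ring
  have hC8 : C8 = μ ^ 4 * b ^ 5 := by
    have h7 : (μ ^ 3 * b ^ 2) ^ 8 ≠ 0 := pow_ne_zero 8 (mul_ne_zero (pow_ne_zero 3 hμ) (pow_ne_zero 2 hb))
    apply mul_right_cancel₀ h7
    rw [e8]
    ring
  have hC4 : C4 = μ ^ 2 * b ^ 2 * (b + 1) := by
    rw [e4]
    field_simp
    ring
  rw [hC4, hC6, hC8]
  ring

end Fermat.Agent.S51lib
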