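import Fermat.Agent.S51lib.Dup

/-!
# S51, piece T5: definitions (`Q₅` and the `X₀(5)`-parameter in terms of `x`-coordinates)
-/

set_option autoImplicit false

open WeierstrassCurve WeierstrassCurve.Affine

namespace Fermat.Agent.S51lib

variable {F : Type*} [Field F]

/-- The (negative of the) 5-division polynomial evaluated at `x`, written in the translated
`b`-invariants: `Q₅ = B₆⁴ - B₄ B₆² B₈ + B₈³`. -/
def q5 (W : WeierstrassCurve F) (x : F) : F :=
  tB6 W x ^ 4 - tB4 W x * tB6 W x ^ 2 * tB8 W x + tB8 W x ^ 3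

/-- The `X₀(5)`-parameter `t = b - 1/b - 11`, `b = -B₈³/B₆⁴`, attached to the `x`-coordinate of
a point of order 5. -/
noncomputable def tpar (W : WeierstrassCurve F) (x : F) : F :=
  -(tB8 W x ^ 3 / tB6 W x ^ 4) + tB6 W x ^ 4 / tB8 W x ^ 3 - 11

/-- `Q₅` as a polynomial. -/
noncomputable def q5poly (W : WeierstrassCurve F) : Polynomial F :=
  let B4 : Polynomial F := Polynomial.C 6 * Polynomial.X ^ 2 + Polynomial.C W.b₂ * Polynomial.X
    + Polynomial.C W.b₄
  let B6 : Polynomial F := Polynomial.C 4 * Polynomial.X ^ 3 + Polynomial.C W.b₂ * Polynomial.X ^ 2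
    + Polynomial.C (2 * W.b₄) * Polynomial.X + Polynomial.C W.b₆
  let B8 : Polynomial F := Polynomial.C 3 * Polynomial.X ^ 4 + Polynomial.C W.b₂ * Polynomial.X ^ 3
    + Polynomial.C (3 * W.b₄) * Polynomial.X ^ 2 + Polynomial.C (3 * W.b₆) * Polynomial.X
    + Polynomial.C W.b₈
  B6 ^ 4 - B4 * B6 ^ 2 * B8 + B8 ^ 3

theorem q5poly_eval (W : WeierstrassCurve F) (x : F) : (q5poly W).eval x = q5 W x := by
  simp [q5poly, q5, tB4, tB6, tB8]

end Fermat.Agent.S51lib
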