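import Fermat.Agent.S51lib.T5Alg

/-!
# S51, piece T5, torsion part: points of order 5 and the polynomial `Q₅`
-/

set_option autoImplicit false

open WeierstrassCurve WeierstrassCurve.Affine

namespace Fermat.Agent.S51lib

variable {F : Type*} [Field F]

theorem q5poly_natDegree (W : WeierstrassCurve F) (h5 : (5 : F) ≠ 0) :
    (q5poly W).natDegree = 12 := by
  unfold q5poly
  simp only []
  compute_degree!

theorem q5poly_ne_zero (W : WeierstrassCurve F) (h5 : (5 : F) ≠ 0) : q5poly W ≠ 0 := by
  intro h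
  have := q5poly_natDegree W h5
  rw [h] at this
  simp at this

/-- The quadratic polynomial in `Y` cutting out the points with given `x`. -/
noncomputable def t5Quad (W : Affine F) (x : F) : Polynomial F :=
  Polynomial.X ^ 2 + Polynomial.C (W.a₁ * x + W.a₃) * Polynomial.X
    - Polynomial.C (x ^ 3 + W.a₂ * x ^ 2 + W.a₄ * x + W.a₆)

lemma t5Quad_natDegree (W : Affine F) (x : F) : (t5Quad W x).natDegree = 2 := by
  unfold t5Quad
  compute_degree!

lemma t5Quad_ne_zero (W : Affine F) (x : F) : t5Quad W x ≠ 0 := by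
  intro h
  have := t5Quad_natDegree W x
  rw [h] at this
  simp at this

/-- Over an algebraically closed field, every `x` is the `x`-coordinate of a point. -/
lemma t5_exists_y [IsAlgClosed F] (W : Affine F) (x : F) : ∃ y : F, W.Equation x y := by
  obtain ⟨y, hy⟩ := IsAlgClosed.exists_root (t5Quad W x) (by
    rw [Polynomial.degree_eq_natDegree (t5Quad_ne_zero W x), t5Quad_natDegree]
    norm_num)
  refine ⟨y, ?_⟩
  rw [equation_iff]
  rw [Polynomial.IsRoot, t5Quad] at hy
  simp only [Polynomial.eval_sub, Polynomial.eval_add, Polynomial.eval_pow, Polynomial.eval_X,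
    Polynomial.eval_mul, Polynomial.eval_C] at hy
  linear_combination hy

variable [DecidableEq F]

/-- Lemma A: a point of order 5 has `B₆, B₈ ≠ 0`, `Q₅ = 0`, and `x(2P) = x - B₈/B₆`. -/
theorem five_torsion_x (W : Affine F) {P : W.Point} (hP : P ≠ 0) (h5 : 5 • P = 0) :
    tB6 W (xc W P) ≠ 0 ∧ tB8 W (xc W P) ≠ 0 ∧ q5 W (xc W P) = 0 ∧ 2 • P ≠ 0 ∧
      xc W (2 • P) = xc W P - tB8 W (xc W P) / tB6 W (xc W P) := by
  have h2 : 2 • P ≠ 0 := by
    intro h
    apply hP
    have : P = 5 • P - 2 • (2 • P) := by abel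
    rw [this, h5, h, smul_zero, sub_zero]
  have h2' : P + P ≠ 0 := by rwa [two_nsmul] at h2
  obtain ⟨h6, hx2⟩ := xc_add_self W hP h2'
  rw [← two_nsmul] at hx2
  have h4 : 2 • (2 • P) ≠ 0 := by
    intro h
    apply hP
    have : P = 5 • P - 2 • (2 • P) := by abel
    rw [this, h5, h, sub_zero]
  have h4' : 2 • P + 2 • P ≠ 0 := by rwa [two_nsmul] at h4
  obtain ⟨h62, hx4⟩ := xc_add_self W h2 h4'
  have h4P : 2 • P + 2 • P = -P := by
    have : 2 • P + 2 • P + P = 5 • P := by abel
    rw [h5] at this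
    exact eq_neg_of_add_eq_zero_left this
  rw [h4P, xc_neg, hx2] at hx4
  rw [hx2] at h62
  have h8 : tB8 W (xc W P) ≠ 0 := by
    intro h8
    rw [h8, zero_div, sub_zero] at hx2
    rcases eq_or_eq_neg_of_xc_eq W h2 hP hx2 with e | e
    · apply hP
      have : P = 2 • P - P := by rw [two_nsmul]; abel
      rw [this, e, sub_self]
    · apply hP
      have h3 : 3 • P = 0 := by
        have : 3 • P = 2 • P + P := by abel
        rw [this, e, neg_add_cancel]
      have : P = 2 • (3 • P) - 5 • P := by abel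
      rw [this, h3, h5, smul_zero, sub_zero]
  exact ⟨h6, h8, q5_of_quad W (xc W P) h6 h8 h62 hx4.symm, h2, hx2⟩

/-- Lemma C: over an algebraically closed field with `5 ≠ 0` there is a point of order 5. -/
theorem exists_five_torsion [IsAlgClosed F] (h5 : (5 : F) ≠ 0) (W : Affine F) (hΔ : W.Δ ≠ 0) :
    ∃ P : W.Point, P ≠ 0 ∧ 5 • P = 0 := by
  obtain ⟨x, hx⟩ := IsAlgClosed.exists_root (q5poly W) (by
    rw [Polynomial.degree_eq_natDegree (q5poly_ne_zero W h5), q5poly_natDegree W h5]
    norm_num)
  rw [Polynomial.IsRoot, q5poly_eval] at hx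
  obtain ⟨y, hy⟩ := t5_exists_y W x
  have hns : W.Nonsingular x y := (equation_iff_nonsingular_of_Δ_ne_zero hΔ).mp hy
  have h6 : tB6 W x ≠ 0 := by
    intro h6
    have h8 : tB8 W x = 0 := by
      have : tB8 W x ^ 3 = 0 := by
        have := hx
        unfold q5 at this
        rw [h6] at this
        linear_combination this
      exact pow_eq_zero_iff (by norm_num) |>.1 this
    exact hΔ (tB6_tB8_zero W x h6 h8)
  have h8 : tB8 W x ≠ 0 := by
    intro h8
    apply h6
    have : tB6 W x ^ 4 = 0 := by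
      have := hx
      unfold q5 at this
      rw [h8] at this
      linear_combination this
    exact pow_eq_zero_iff (by norm_num) |>.1 this
  obtain ⟨h62, h82, hquad⟩ := quad_of_q5 W x h6 h8 hx
  set P : W.Point := Point.some x y hns with hPdef
  have hP : P ≠ 0 := Point.some_ne_zero hns
  have hxP : xc W P = x := rfl
  have h2 : P + P ≠ 0 := add_self_ne_zero_of_tB6_ne_zero W hP (by rw [hxP]; exact h6)
  obtain ⟨-, hx2⟩ := xc_add_self W hP h2
  rw [hxP] at hx2
  have h4 : (P + P) + (P + P) ≠ 0 :=
    add_self_ne_zero_of_tB6_ne_zero W h2 (by rw [hx2]; exact h62)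
  obtain ⟨-, hx4⟩ := xc_add_self W h2 h4
  rw [hx2, hquad, ← hxP] at hx4
  refine ⟨P, hP, ?_⟩
  rcases eq_or_eq_neg_of_xc_eq W h4 hP hx4 with e | e
  · -- 4P = P, so 3P = 0, so x(2P) = x(P), contradiction with B₈ ≠ 0
    exfalso
    have e2 : P + P = -P := by
      have : (P + P) + P = 0 := by
        have : (P + P) + (P + P) - P = 0 := by rw [e, sub_self]
        rw [← this]; abel
      exact eq_neg_of_add_eq_zero_left this
    have := hx2
    rw [e2, xc_neg, hxP] at this
    have hz : tB8 W x / tB6 W x = 0 := by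
      have h' : x = x - tB8 W x / tB6 W x := this
      linear_combination h'
    rcases div_eq_zero_iff.mp hz with h | h
    · exact h8 h
    · exact h6 h
  · have : 5 • P = (P + P) + (P + P) + P := by abel
    rw [this, e, neg_add_cancel]

end Fermat.Agent.S51lib
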