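import Mathlib

/-!
# S51, piece D1/D: the rational points of `X₀(15)` in the `(h, t)`-model

The curve `(h+27)(h+3)³ t = (t²+10t+5)³ h` is mapped to the Weierstrass curve
`Y² = X (X - 16) (X + 9)` (15a1); the polynomial identities below are certificates
computed off-line (exact rational arithmetic).
-/

set_option autoImplicit false

namespace Fermat.Agent.S51lib

/-- Numerator of the `X`-coordinate on `15a1` (denominator `t² (t² + 4t - 1)`). -/
def x015NX (t y : ℚ) : ℚ :=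
    -540*t*y^3 - 13500*y^3 + 180*t^3*y^2 + 6300*t^2*y^2 + 43740*t*y^2 + 720*t^3*y + 14580*t^2*y
      + 72900*t*y + 36*t^4 + 2304*t^3 + 26784*t^2 + 13500*t

/-- Numerator of the `Y`-coordinate on `15a1` (denominator `t³ (t² + 4t - 1)`). -/
def x015NY (t y : ℚ) : ℚ :=
    -4860*t^2*y^3 - 310500*t*y^3 - 3375000*y^3 + 1620*t^4*y^2 + 119700*t^3*y^2 + 2143260*t^2*y^2
      + 10935000*t*y^2 + 8280*t^4*y + 359820*t^3*y + 4592700*t^2*y + 18225000*t*y + 180*t^5 + 34560*t^4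
      + 923400*t^3 + 6871500*t^2 + 3375000*t

/-- The plane quartic model `G(t, y) = 0` of `X₀(15)`, where `y = (t²+10t+5)/(h+3)`. -/
def x015G (t y : ℚ) : ℚ :=
    3*y^4 - t^2*y^3 - 10*t*y^3 - 5*y^3 + 24*t*y + t^3 + 10*t^2 + 5*t

theorem x015_I1 (t y : ℚ) (hG : x015G t y = 0) :
    x015NY t y ^ 2 * (t ^ 2 + 4 * t - 1) =
      x015NX t y * (x015NX t y - 16 * (t ^ 2 * (t ^ 2 + 4 * t - 1))) *
        (x015NX t y + 9 * (t ^ 2 * (t ^ 2 + 4 * t - 1))) := by
  unfold x015G at hG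
  unfold x015NX x015NY
  linear_combination
    (52488000*t^3*y^5 + 3936600000*t^2*y^5 + 98415000000*t*y^5 + 820125000000*y^5 - 34992000*t^5*y^4 - 2974320000*t^4*y^4 - 91399104000*t^3*y^4 - 1177918200000*t^2*y^4 - 5073840000000*t*y^4 + 1366875000000*y^4 + 5832000*t^7*y^3 + 554040000*t^6*y^3 + 19904616000*t^5*y^3 + 328988952000*t^4*y^3 + 2338235424000*t^3*y^3 + 3687573600000*t^2*y^3 - 17186175000000*t*y^3 + 2278125000000*y^3 + 69984000*t^7*y^2 + 5614272000*t^6*y^2 + 169396272000*t^5*y^2 + 2387224224000*t^4*y^2 + 15654415752000*t^3*y^2 + 36393867000000*t^2*y^2 - 15582375000000*t*y^2 + 648000*t^8*y + 327240000*t^7*y + 18976680000*t^6*y + 445290696000*t^5*y + 4985205264000*t^4*y + 25490379240000*t^3*y + 42766785000000*t^2*y - 13668750000000*t*y + 5184000*t^8 + 909144000*t^7 + 38773728000*t^6 + 698446152000*t^5 + 5768674200000*t^4 + 18420372000000*t^3 + 3900150000000*t^2 - 2278125000000*t) * hG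

theorem x015_I2 (t y : ℚ) (hG : x015G t y = 0) :
    t * (x015NX t y * x015NY t y - 13 * x015NX t y ^ 2 * t
        + 108 * x015NX t y * t ^ 3 * (t ^ 2 + 4 * t - 1)
        + 36 * x015NY t y * t ^ 2 * (t ^ 2 + 4 * t - 1)) = 250 * x015NX t y ^ 2 * t := by
  unfold x015G at hG
  unfold x015NX x015NY
  linear_combination
    (-388800*t^4*y^2 - 9720000*t^3*y^2 + 129600*t^6*y + 4536000*t^5*y + 30909600*t^4*y - 14580000*t^3*y + 712800*t^6 + 17107200*t^5 + 93895200*t^4 - 24300000*t^3) * hG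

theorem x015_I3 (t y : ℚ) (hG : x015G t y = 0) :
    36 * t * (t ^ 2 + 4 * t - 1) * (t ^ 2 * (t ^ 2 + 4 * t - 1)) =
      x015NX t y * (15*y^3 - 5*t^2*y^2 - 50*t*y^2 - 40*y^2 + 5*t^2*y + 20*t*y + 25*y + t^3 + 19*t^2 + 104*t) := by
  unfold x015G at hG
  unfold x015NX
  linear_combination
    (2700*t*y^2 + 67500*y^2 - 900*t^3*y - 31500*t^2*y - 221400*t*y - 67500*y - 2700*t^3 - 46800*t^2 - 280800*t) * hG

end Fermat.Agent.S51lib
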